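import Fermat.Agent.Buchi.Semigroups

/-!
# Automata of Büchi

A set of infinite words is accepted by a nondeterministic automaton with the acceptance condition
of Büchi exactly when it is recognizable.
-/

set_option autoImplicit false

namespace FA.Buchi

/-- A finite nondeterministic automaton on infinite words. -/
structure Automaton (α : Type) where
  /-- The states. -/
  State : Type
  finite_state : Finite State
  /-- The initial states. -/
  init : Set State
  /-- The transitions. -/
  next : State → α → Set State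
  /-- The final states. -/
  final : Set State

variable {α : Type}

/-- Some run meets the final states infinitely often. -/
def Automaton.language (M : Automaton α) : Set (ℕ → α) :=
  {w | ∃ r : ℕ → M.State, r 0 ∈ M.init ∧ (∀ n, r (n + 1) ∈ M.next (r n) (w n)) ∧
    ∀ N, ∃ n, N < n ∧ r n ∈ M.final}

/-- Accepted by some automaton. -/
def IsOmegaRegular (L : Set (ℕ → α)) : Prop :=
  ∃ M : Automaton α, M.language = L

/-- A run over a finite word; `b` asks for a final state after the start. -/
def reach (M : Automaton α) : List α → M.State → M.State → Bool → Prop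
  | [], p, q, b => p = q ∧ b = false
  | a :: l, p, q, b => ∃ r ∈ M.next p a,
      if b = true then r ∈ M.final ∧ reach M l r q false ∨ reach M l r q true
      else reach M l r q false

/-- Composition of profiles. -/
def profileMul {σ : Type} (P Q : Set (σ × σ × Bool)) : Set (σ × σ × Bool) :=
  {t | ∃ r, if t.2.2 = true then
      ((t.1, r, true) ∈ P ∧ (r, t.2.1, false) ∈ Q) ∨ ((t.1, r, false) ∈ P ∧ (r, t.2.1, true) ∈ Q)
    else (t.1, r, false) ∈ P ∧ (r, t.2.1, false) ∈ Q}

/-- The profile of a finite word. -/
def profile (M : Automaton α) (l : List α) : Set (M.State × M.State × Bool) :=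
  {t | reach M l t.1 t.2.1 t.2.2}

theorem isHom_profile (M : Automaton α) : IsHom profileMul (profile M) := by
  have h : ∀ (u v : List α) (p q : M.State) (b : Bool), reach M (u ++ v) p q b ↔
      ∃ r, if b = true then (reach M u p r true ∧ reach M v r q false) ∨
          (reach M u p r false ∧ reach M v r q true)
        else reach M u p r false ∧ reach M v r q false := by
    intro u v
    induction u with
    | nil =>
      intro p q b
      cases b <;> simp [reach]
    | cons a u ih =>
      intro p q b
      cases b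
      · simp only [List.cons_append, reach, Bool.false_eq_true, if_false, ih]
        exact ⟨fun ⟨r, hr, x, h1, h2⟩ => ⟨x, ⟨r, hr, h1⟩, h2⟩,
          fun ⟨x, ⟨r, hr, h1⟩, h2⟩ => ⟨r, hr, x, h1, h2⟩⟩
      · simp only [List.cons_append, reach, if_true, Bool.false_eq_true, if_false, ih]
        constructor
        · rintro ⟨r, hr, ⟨hf, x, h1, h2⟩ | ⟨x, ⟨h1, h2⟩ | ⟨h1, h2⟩⟩⟩
          exacts [⟨x, .inl ⟨⟨r, hr, .inl ⟨hf, h1⟩⟩, h2⟩⟩, ⟨x, .inl ⟨⟨r, hr, .inr h1⟩, h2⟩⟩,
            ⟨x, .inr ⟨⟨r, hr, h1⟩, h2⟩⟩]
        · rintro ⟨x, ⟨⟨r, hr, ⟨hf, h1⟩ | h1⟩, h2⟩ | ⟨⟨r, hr, h1⟩, h2⟩⟩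
          exacts [⟨r, hr, .inl ⟨hf, x, h1, h2⟩⟩, ⟨r, hr, .inr ⟨x, .inl ⟨h1, h2⟩⟩⟩,
            ⟨r, hr, .inr ⟨x, .inr ⟨h1, h2⟩⟩⟩]
  intro u v _ _
  ext ⟨p, q, b⟩
  exact h u v p q b

theorem reach_of_run (M : Automaton α) {w : ℕ → α} {r : ℕ → M.State}
    (hr : ∀ n, r (n + 1) ∈ M.next (r n) (w n)) (d : ℕ) : ∀ a,
    reach M (seg w a (a + d)) (r a) (r (a + d)) false ∧
      ((∃ m, a < m ∧ m ≤ a + d ∧ r m ∈ M.final) →
        reach M (seg w a (a + d)) (r a) (r (a + d)) true) := by
  induction d with
  | zero => exact fun a => ⟨by simp [seg, reach], fun ⟨m, h1, h2, _⟩ => absurd h1 (by omega)⟩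
  | succ d ih =>
    intro a
    have hcons : seg w a (a + (d + 1)) = w a :: seg w (a + 1) (a + (d + 1)) := by
      rw [← seg_append w (Nat.le_succ a) (by omega : a + 1 ≤ a + (d + 1))]
      simp [seg]
    obtain ⟨ihf, iht⟩ := ih (a + 1)
    rw [show a + 1 + d = a + (d + 1) by omega] at ihf iht
    rw [hcons]
    refine ⟨⟨r (a + 1), hr a, by simpa using ihf⟩, fun ⟨m, h1, h2, hm⟩ => ⟨r (a + 1), hr a, ?_⟩⟩
    simp only [if_true]
    rcases eq_or_lt_of_le (Nat.succ_le_of_lt h1) with rfl | hlt
    · exact .inl ⟨hm, ihf⟩
    · exact .inr (iht ⟨m, hlt, h2, hm⟩)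

theorem exists_states_of_reach (M : Automaton α) (l : List α) : ∀ (p q : M.State) (b : Bool),
    reach M l p q b → ∃ r : ℕ → M.State, r 0 = p ∧ r l.length = q ∧
      (∀ t (ht : t < l.length), r (t + 1) ∈ M.next (r t) l[t]) ∧
      (b = true → ∃ t, 0 < t ∧ t ≤ l.length ∧ r t ∈ M.final) := by
  induction l with
  | nil =>
    rintro p q b ⟨rfl, rfl⟩
    exact ⟨fun _ => p, rfl, rfl, fun t ht => absurd ht (Nat.not_lt_zero t), fun h => by simp at h⟩
  | cons a l ih =>
    rintro p q b ⟨x, hx, h⟩
    have key : ∀ b', reach M l x q b' →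
        (b = true → x ∈ M.final ∨ b' = true) → ∃ r : ℕ → M.State, r 0 = p ∧
          r (a :: l).length = q ∧
          (∀ t (ht : t < (a :: l).length), r (t + 1) ∈ M.next (r t) (a :: l)[t]) ∧
          (b = true → ∃ t, 0 < t ∧ t ≤ (a :: l).length ∧ r t ∈ M.final) := by
      intro b' hb' himp
      obtain ⟨r, h0, hl, hs, hf⟩ := ih x q b' hb'
      let r' : ℕ → M.State := fun n => Nat.casesOn n p r
      refine ⟨r', rfl, by simpa [r'] using hl, fun t ht => ?_, fun hb => ?_⟩
      · cases t with
        | zero => simpa [r', h0] using hx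
        | succ t => simpa [r'] using hs t (by simpa using ht)
      · rcases himp hb with hxf | hb''
        · exact ⟨1, Nat.one_pos, by simp, by simpa [r', h0] using hxf⟩
        · obtain ⟨t, h1, h2, h3⟩ := hf hb''
          exact ⟨t + 1, Nat.succ_pos t, by simpa using h2, h3⟩
    cases b
    · exact key false (by simpa using h) (fun h => by simp at h)
    · simp only [if_true] at h
      rcases h with ⟨hxf, h⟩ | h
      exacts [key false h fun _ => .inl hxf, key true h fun _ => .inr rfl]

/-- **An automaton is recognized by its profiles.** -/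
theorem IsOmegaRegular.recognizable {L : Set (ℕ → α)} (h : IsOmegaRegular L) :
    Recognizable L := by
  obtain ⟨M, rfl⟩ := h
  have := M.finite_state
  refine ⟨Set (M.State × M.State × Bool), inferInstance, profileMul, profile M,
    fun s e => ∃ q : ℕ → M.State, (∃ p ∈ M.init, (p, q 0, false) ∈ s) ∧
      (∀ k, (q k, q (k + 1), false) ∈ e) ∧ ∀ N, ∃ k, N ≤ k ∧ (q k, q (k + 1), true) ∈ e,
    isHom_profile M, fun w c s e hl => ⟨?_, ?_⟩⟩
  · rintro ⟨r, h0, hr, hinf⟩
    have key : ∀ a b, a ≤ b → reach M (seg w a b) (r a) (r b) false ∧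
        ((∃ m, a < m ∧ m ≤ b ∧ r m ∈ M.final) → reach M (seg w a b) (r a) (r b) true) := by
      intro a b hab
      have := reach_of_run M hr (b - a) a
      rwa [Nat.add_sub_cancel' hab] at this
    refine ⟨fun k => r (c k), ⟨r 0, h0, ?_⟩, fun k => ?_, fun N => ?_⟩
    · rw [← hl.prefix_val 0]
      exact (key 0 (c 0) (Nat.zero_le _)).1
    · rw [← hl.block_val k (k + 1) (Nat.lt_succ_self k)]
      exact (key _ _ (hl.mono (Nat.lt_succ_self k)).le).1
    · obtain ⟨n, hn, hnf⟩ := hinf (c N)
      have hex : ∃ k, n ≤ c (N + k + 1) :=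
        ⟨n, le_trans (by omega) hl.mono.le_apply⟩
      refine ⟨N + Nat.find hex, by omega, ?_⟩
      rw [← hl.block_val _ _ (Nat.lt_succ_self (N + Nat.find hex))]
      refine (key _ _ (hl.mono (Nat.lt_succ_self _)).le).2 ⟨n, ?_, Nat.find_spec hex, hnf⟩
      rcases Nat.eq_zero_or_pos (Nat.find hex) with h | h
      · rwa [h]
      · have := Nat.find_min hex (Nat.sub_lt h Nat.one_pos)
        rw [show N + (Nat.find hex - 1) + 1 = N + Nat.find hex by omega] at this
        omega
  · rintro ⟨q, ⟨p, hp, hps⟩, hq, hinf⟩
    classical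
    let d : ℕ → ℕ := fun k => Nat.rec 0 (fun j _ => c j) k
    have hd : StrictMono d := strictMono_nat_of_lt_succ fun k => by
      cases k with
      | zero => exact hl.pos
      | succ k => exact hl.mono (Nat.lt_succ_self k)
    let Q : ℕ → M.State := fun k => Nat.casesOn k p q
    let fb : ℕ → Bool := fun k => decide (0 < k ∧ (Q k, Q (k + 1), true) ∈ e)
    have hpiece : ∀ k, reach M (seg w (d k) (d (k + 1))) (Q k) (Q (k + 1)) (fb k) := by
      intro k
      change (Q k, Q (k + 1), fb k) ∈ profile M (seg w (d k) (d (k + 1)))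
      cases k with
      | zero =>
        have h0 : fb 0 = false := by simp [fb]
        change (p, q 0, fb 0) ∈ profile M (seg w 0 (c 0))
        rw [h0, hl.prefix_val 0]
        exact hps
      | succ k =>
        change (q k, q (k + 1), fb (k + 1)) ∈ profile M (seg w (c k) (c (k + 1)))
        rw [hl.block_val k (k + 1) (Nat.lt_succ_self k)]
        cases hb : fb (k + 1)
        · exact hq k
        · exact (of_decide_eq_true hb).2
    choose rr h0 hlen hstep hfin using fun k => exists_states_of_reach M _ _ _ _ (hpiece k)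
    obtain ⟨r, hr⟩ := exists_glue hd rr
    have hend : ∀ k t, d k + t ≤ d (k + 1) → r (d k + t) = rr k t := fun k t ht => by
      rcases lt_or_eq_of_le ht with ht | ht
      · exact hr k t ht
      · have e1 : r (d (k + 1)) = rr (k + 1) 0 := by
          simpa using hr (k + 1) 0 (by simpa using hd (Nat.lt_succ_self (k + 1)))
        have e2 := hlen k
        rw [length_seg, show d (k + 1) - d k = t by omega] at e2
        rw [ht, e1, h0, e2]
    refine ⟨r, ?_, fun n => ?_, fun N => ?_⟩
    · have := hend 0 0 (hd (Nat.lt_succ_self 0)).le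
      simp only [d, Nat.rec_zero, Nat.add_zero] at this
      rw [this, h0]
      exact hp
    · obtain ⟨k, h1, h2⟩ := exists_interval hd rfl n
      obtain ⟨t, rfl⟩ := Nat.exists_eq_add_of_le h1
      have hs := hstep k t (by rw [length_seg]; omega)
      simp only [seg, List.getElem_map, List.getElem_range] at hs
      rw [add_assoc, hend k t (by omega), hend k (t + 1) (by omega)]
      exact hs
    · obtain ⟨k, hk, hke⟩ := hinf N
      have hb : fb (k + 1) = true := by simp [fb, Q, hke]
      obtain ⟨t, ht0, ht, htf⟩ := hfin (k + 1) hb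
      rw [length_seg] at ht
      have hkN : N ≤ d (k + 1) := by
        have : k + 1 ≤ d (k + 1) := hd.le_apply
        omega
      have hle : d (k + 1) + t ≤ d (k + 1 + 1) := by
        have := hd (Nat.lt_succ_self (k + 1))
        omega
      exact ⟨d (k + 1) + t, by omega, (congrArg (· ∈ M.final) (hend (k + 1) t hle)).mpr htf⟩

variable {S : Type}

/-- The value after one more letter. -/
def stepVal (mul : S → S → S) (val : List α → S) : Option S → α → S
  | none, a => val [a]
  | some y, a => mul y (val [a])

/-- The automaton that guesses the two values. -/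
def pairAutomaton [Finite S] (mul : S → S → S) (val : List α → S) (acc : S → S → Prop) :
    Automaton α where
  State := (S × S) × Bool × Option S
  finite_state := inferInstance
  init := {x | ∃ s e, acc s e ∧ mul e e = e ∧ mul s e = s ∧ x = ((s, e), false, none)}
  next := fun x a => {y | y.1 = x.1 ∧ (y.2 = (x.2.1, some (stepVal mul val x.2.2 a)) ∨
    (stepVal mul val x.2.2 a = (if x.2.1 = true then x.1.2 else x.1.1) ∧ y.2 = (true, none)))}
  final := {x | x.2.1 = true ∧ x.2.2 = none}

/-- **A recognizable set is accepted by an automaton.** -/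
theorem Recognizable.isOmegaRegular {L : Set (ℕ → α)} (h : Recognizable L) :
    IsOmegaRegular L := by
  obtain ⟨S, hS, mul, val, acc, hv, hL⟩ := h
  classical
  refine ⟨pairAutomaton mul val acc, ?_⟩
  let opt : (ℕ → α) → ℕ → ℕ → Option S := fun w a n =>
    if n = a then none else some (val (seg w a n))
  have hopt : ∀ (w : ℕ → α) a n, a ≤ n →
      stepVal mul val (opt w a n) (w n) = val (seg w a (n + 1)) := by
    intro w a n han
    rcases eq_or_lt_of_le han with rfl | hlt
    · simp [opt, stepVal, seg]
    · simp only [opt, if_neg hlt.ne', stepVal]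
      rw [seg_succ w han, hv _ _ (seg_ne_nil w hlt) (List.cons_ne_nil _ _)]
  ext w
  constructor
  · rintro ⟨r, ⟨s, e, hacc, hee, hse, h0⟩, hr, hinf⟩
    have hfirst : ∀ n, (r n).1 = (s, e) := fun n => by
      induction n with
      | zero => rw [h0]
      | succ n ih => rw [(hr n).1, ih]
    let F : ℕ → Prop := fun n => (r n).2 = (true, none)
    have hF0 : ¬F 0 := by simp [F, h0]
    have hFinf : {n | F n}.Infinite := Set.infinite_of_forall_exists_gt fun N => by
      obtain ⟨n, hn, h1, h2⟩ := hinf N
      exact ⟨n, Prod.ext h1 h2, hn⟩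
    have hblock : ∀ a b, a < b → (∃ ph, (r a).2 = (ph, none)) → (∀ n, a < n → n < b → ¬F n) →
        F b → val (seg w a b) = if (r a).2.1 = true then e else s := by
      intro a b hab ⟨ph, hph⟩ hno hb
      have inv : ∀ n, a ≤ n → n < b → (r n).2 = (ph, opt w a n) := by
        intro n han hnb
        induction n, han using Nat.le_induction with
        | base => simpa [opt] using hph
        | succ n han ih =>
          have ih := ih (by omega)
          rcases (hr n).2 with h | ⟨-, h⟩
          · rw [h, ih, hopt w a n han]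
            simp [opt, show n + 1 ≠ a by omega]
          · exact absurd h (hno (n + 1) (by omega) hnb)
      obtain ⟨m, rfl⟩ : ∃ m, b = m + 1 := ⟨b - 1, by omega⟩
      have hm := inv m (by omega) (Nat.lt_succ_self m)
      rcases (hr m).2 with h | ⟨h, -⟩
      · exact absurd (h.symm.trans hb) (by simp)
      · rw [hm, hfirst m, hopt w a m (by omega)] at h
        rw [hph]
        exact h
    let c : ℕ → ℕ := Nat.nth F
    have hc : StrictMono c := Nat.nth_strictMono hFinf
    have hcF : ∀ k, F (c k) := Nat.nth_mem_of_infinite hFinf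
    have hc0 : 0 < c 0 := Nat.pos_of_ne_zero fun h => hF0 (h ▸ hcF 0)
    refine (hL w c s e (Linked.of_blocks hv hc hc0 ?_ (fun k => ?_) hee hse)).2 hacc
    · have := hblock 0 (c 0) hc0 ⟨false, by rw [h0]⟩
        (fun n _ hn hF => by
          have hle : c 0 ≤ n := by
            simp only [c, Nat.nth_zero]
            exact Nat.sInf_le hF
          omega) (hcF 0)
      simpa [h0] using this
    · have := hblock (c k) (c (k + 1)) (hc (Nat.lt_succ_self k)) ⟨true, hcF k⟩
        (fun n h1 h2 hF => by
          obtain ⟨j, -, hj⟩ := Nat.exists_lt_card_nth_eq (p := F) hF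
          rw [← hj] at h1 h2
          have := hc.lt_iff_lt.1 h1
          have := hc.lt_iff_lt.1 h2
          omega) (hcF (k + 1))
      simpa [show (r (c k)).2.1 = true by rw [hcF k]] using this
  · intro hw
    obtain ⟨c, s, e, hl⟩ := exists_linked_id hv w
    let r : ℕ → (S × S) × Bool × Option S := fun n => Nat.rec ((s, e), false, none)
      (fun m x => if m + 1 ∈ Set.range c then ((s, e), true, none)
        else ((s, e), x.2.1, some (stepVal mul val x.2.2 (w m)))) n
    have hr0 : r 0 = ((s, e), false, none) := rfl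
    have hrs : ∀ m, r (m + 1) = if m + 1 ∈ Set.range c then ((s, e), true, none)
        else ((s, e), (r m).2.1, some (stepVal mul val (r m).2.2 (w m))) := fun _ => rfl
    let d : ℕ → ℕ := fun k => Nat.rec 0 (fun j _ => c j) k
    have hd : StrictMono d := strictMono_nat_of_lt_succ fun k => by
      cases k with
      | zero => exact hl.pos
      | succ k => exact hl.mono (Nat.lt_succ_self k)
    have hinv : ∀ k n, d k ≤ n → n < d (k + 1) →
        r n = ((s, e), decide (0 < k), opt w (d k) n) := by
      intro k n h1 h2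
      induction n, h1 using Nat.le_induction with
      | base =>
        cases k with
        | zero => simp [d, opt, hr0]
        | succ k =>
          change r (c k) = _
          obtain ⟨m, hm⟩ : ∃ m, c k = m + 1 :=
            ⟨c k - 1, by have := hl.pos.trans_le (hl.mono.monotone (Nat.zero_le k)); omega⟩
          rw [hm, hrs, if_pos ⟨k, hm⟩]
          simp [opt, d]
      | succ n h1 ih =>
        have hno : n + 1 ∉ Set.range c := by
          rintro ⟨j, hj⟩
          change d (j + 1) = n + 1 at hj
          have := (hd.lt_iff_lt (a := k) (b := j + 1)).1 (by omega)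
          have := (hd.lt_iff_lt (a := j + 1) (b := k + 1)).1 (by omega)
          omega
        rw [hrs, if_neg hno, ih (by omega), hopt w (d k) n h1]
        simp [opt, show n + 1 ≠ d k by omega]
    refine ⟨r, ⟨s, e, (hL w c s e hl).1 hw, hl.idem hv, hl.absorb hv, hr0⟩, fun n => ?_,
      fun N => ?_⟩
    · obtain ⟨k, h1, h2⟩ := exists_interval hd rfl n
      rw [hinv k n h1 h2]
      rcases lt_or_eq_of_le (Nat.succ_le_of_lt h2) with h | h
      · rw [hinv k (n + 1) (by omega) h]
        refine ⟨rfl, .inl (Prod.ext rfl ?_)⟩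
        change opt w (d k) (n + 1) = some (stepVal mul val (opt w (d k) n) (w n))
        rw [hopt w (d k) n h1]
        simp [opt, show n + 1 ≠ d k by omega]
      · rw [show n + 1 = d (k + 1) from h,
          hinv (k + 1) (d (k + 1)) le_rfl (hd (Nat.lt_succ_self (k + 1)))]
        refine ⟨rfl, .inr ⟨?_, Prod.ext (by simp) (by simp [opt])⟩⟩
        change stepVal mul val (opt w (d k) n) (w n) = if decide (0 < k) = true then e else s
        rw [hopt w (d k) n h1, show n + 1 = d (k + 1) from h]
        cases k with
        | zero =>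
          change val (seg w 0 (c 0)) = _
          simpa using hl.prefix_val 0
        | succ k =>
          change val (seg w (c k) (c (k + 1))) = _
          simpa using hl.block_val k (k + 1) (Nat.lt_succ_self k)
    · refine ⟨d (N + 1), Nat.lt_of_succ_le hd.le_apply, ?_⟩
      rw [hinv (N + 1) (d (N + 1)) le_rfl (hd (Nat.lt_succ_self (N + 1)))]
      exact ⟨decide_eq_true (Nat.succ_pos N), if_pos rfl⟩

theorem isOmegaRegular_iff_recognizable {L : Set (ℕ → α)} :
    IsOmegaRegular L ↔ Recognizable L :=
  ⟨IsOmegaRegular.recognizable, Recognizable.isOmegaRegular⟩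

end FA.Buchi
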