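import Fermat.Agent.Buchi.Tables

/-!
# Soundness of the tables

The table of a formula recognizes its models, so definable sets are accepted by automata and truth
of sentences is decidable.
-/

set_option autoImplicit false

namespace FA.Buchi

open Formula

variable {α β S : Type}

/-- The value of a word computed from the left. -/
def foldVal (mul : S → S → S) (h : α → S) (d : S) : List α → S
  | [] => d
  | a :: t => t.foldl (fun x b => mul x (h b)) (h a)

theorem foldVal_snoc {mul : S → S → S} {h : α → S} {d : S} {l : List α} (hl : l ≠ []) (a : α) :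
    foldVal mul h d (l ++ [a]) = mul (foldVal mul h d l) (h a) := by
  obtain ⟨b, t, rfl⟩ := List.exists_cons_of_ne_nil hl
  simp [foldVal]

theorem isHom_foldVal {mul : S → S → S} (hassoc : ∀ x y z, mul (mul x y) z = mul x (mul y z))
    (h : α → S) (d : S) : IsHom mul (foldVal mul h d) := by
  intro u v hu
  induction v using List.reverseRecOn with
  | nil => exact fun h => absurd rfl h
  | append_singleton v a ih =>
    intro _
    rcases eq_or_ne v [] with rfl | hv
    · exact foldVal_snoc hu a
    · rw [← List.append_assoc, foldVal_snoc (by simp [hu]), ih hv, foldVal_snoc hv, hassoc]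

theorem forall₂_append_left_iff {R : α → β → Prop} {u v : List α} {l : List β} :
    List.Forall₂ R (u ++ v) l ↔
      ∃ l₁ l₂, List.Forall₂ R u l₁ ∧ List.Forall₂ R v l₂ ∧ l = l₁ ++ l₂ :=
  ⟨fun h => ⟨l.take u.length, l.drop u.length, by simpa using List.forall₂_take u.length h,
    by simpa using List.forall₂_drop u.length h, (List.take_append_drop _ l).symm⟩,
    fun ⟨_, _, h1, h2, he⟩ => he ▸ List.rel_append h1 h2⟩

/-- The letters: sets of variables below `B`, as numbers. -/
abbrev Letter (B : ℕ) : Type := Fin (2 ^ B)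

/-- The assignment of a word. -/
def assignment {B : ℕ} (w : ℕ → Letter B) (i : ℕ) : Set ℕ := {n | (w n : ℕ).testBit i = true}

/-- The words satisfying a formula. -/
def models (B : ℕ) (φ : Formula) : Set (ℕ → Letter B) := {w | φ.Realize (assignment w)}

/-- The value computed by a table. -/
def wordVal (B : ℕ) (r : Table) : List (Letter B) → ℕ :=
  foldVal (tableMul r) (fun a : Letter B => letterVal r a) 0

/-- A table that recognizes `L`. -/
structure IsTableFor (B : ℕ) (r : Table) (L : Set (ℕ → Letter B)) : Prop where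
  bound : ∀ l, l ≠ [] → wordVal B r l < r.1
  hom : IsHom (tableMul r) (wordVal B r)
  rec' : Recognizes (wordVal B r) (fun s e => tableAcc r s e = true) L

theorem IsTableFor.finite_range {B : ℕ} {r : Table} {L : Set (ℕ → Letter B)}
    (h : IsTableFor B r L) : Finite (Set.range (wordVal B r)) :=
  ((Set.finite_Iic r.1).subset (Set.range_subset_iff.2 fun l => by
    rcases eq_or_ne l [] with rfl | hl
    · exact Nat.zero_le r.1
    · exact (h.bound l hl).le)).to_subtype

/-- Tabulating a correct value gives a correct table. -/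
theorem isTableFor_mkTable {B N : ℕ} {h : ℕ → ℕ} {m : ℕ → ℕ → ℕ} {acc : ℕ → ℕ → Bool}
    {L : Set (ℕ → Letter B)} (F : List (Letter B) → ℕ) (hN : ∀ l, l ≠ [] → F l < N)
    (hone : ∀ a : Letter B, F [a] = h a) (hF : IsHom m F)
    (hL : Recognizes F (fun s e => acc s e = true) L) :
    IsTableFor B (mkTable B N h m acc) L := by
  have key : ∀ l, l ≠ [] → wordVal B (mkTable B N h m acc) l = F l := by
    intro l
    induction l using List.reverseRecOn with
    | nil => exact fun h => absurd rfl h
    | append_singleton l a ih =>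
      intro _
      rcases eq_or_ne l [] with rfl | hl
      · simp [wordVal, foldVal, letterVal_mkTable a.2, hone]
      · rw [wordVal, foldVal_snoc hl, ← wordVal, ih hl, letterVal_mkTable a.2, ← hone a,
          (tableMul_mkTable (hN l hl) (hN [a] (List.cons_ne_nil _ _))).1,
          hF l [a] hl (List.cons_ne_nil _ _)]
  refine ⟨fun l hl => (key l hl).trans_lt (hN l hl), fun u v hu hv => ?_, fun w c s e hl => ?_⟩
  · rw [key _ (by simp [hu]), key u hu, key v hv, (tableMul_mkTable (hN u hu) (hN v hv)).1,
      hF u v hu hv]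
  · have hs : s = F (seg w 0 (c 0)) := by rw [← key _ (seg_ne_nil w hl.pos), hl.prefix_val 0]
    have hlt : c 0 < c 1 := hl.mono Nat.one_pos
    have he : e = F (seg w (c 0) (c 1)) := by
      rw [← key _ (seg_ne_nil w hlt), hl.block_val 0 1 Nat.one_pos]
    have hFl := hl.map (val := F) id fun l hl => (key l hl).symm
    refine (hL w c s e hFl).trans ?_
    change acc s e = true ↔ tableAcc (mkTable B N h m acc) s e = true
    rw [(tableMul_mkTable (hs ▸ hN _ (seg_ne_nil w hl.pos)) (he ▸ hN _ (seg_ne_nil w hlt))).2]

theorem isTableFor_sub (B i j : ℕ) : IsTableFor B (subTable B i j) (models B (.sub i j)) := by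
  classical
  let P : Letter B → Prop := fun a => (a : ℕ).testBit i = true → (a : ℕ).testBit j = true
  refine isTableFor_mkTable (fun l => if ∀ a ∈ l, P a then 1 else 0)
    (fun l _ => by split_ifs <;> omega) (fun a => ?_) (fun u v _ _ => ?_) fun w c s e hl => ?_
  · cases hi : (a : ℕ).testBit i <;> cases hj : (a : ℕ).testBit j <;> simp [P, hi, hj]
  · simp only [List.forall_mem_append]
    split_ifs <;> simp_all
  · have hP : ∀ k, (∀ a ∈ seg w 0 (c k), P a) ↔ s = 1 := fun k => by
      have := hl.prefix_val k
      constructor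
      · intro h
        rwa [if_pos h, eq_comm] at this
      · intro h
        by_contra hno
        rw [if_neg hno] at this
        omega
    simp only [decide_eq_true_eq]
    change assignment w i ⊆ assignment w j ↔ s = 1
    constructor
    · intro h
      refine (hP 0).1 fun a ha hai => ?_
      simp only [seg, List.mem_map] at ha
      obtain ⟨t, -, rfl⟩ := ha
      exact h hai
    · intro h n hn
      refine (hP (n + 1)).2 h (w n) ?_ hn
      simp only [seg, List.mem_map, List.mem_range]
      exact ⟨n, by have := hl.mono.le_apply (x := n + 1); omega, by simp⟩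

theorem isTableFor_succ (B i j : ℕ) : IsTableFor B (succTable B i j) (models B (.succ i j)) := by
  let h : Letter B → Bool × Bool × Bool := fun a =>
    ((a : ℕ).testBit j, (a : ℕ).testBit i, false)
  let G := foldVal succOp h (false, false, false)
  have hG : IsHom succOp G := isHom_foldVal (fun x y z => by
    obtain ⟨x1, x2, x3⟩ := x
    obtain ⟨y1, y2, y3⟩ := y
    obtain ⟨z1, z2, z3⟩ := z
    simp only [succOp, Prod.mk.injEq, true_and]
    cases x2 <;> cases x3 <;> cases y1 <;> cases y2 <;> cases y3 <;> cases z1 <;> cases z3 <;> rfl)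
    h (false, false, false)
  refine isTableFor_mkTable (fun l => encTriple (G l)) (fun l _ => encTriple_lt _) (fun a => rfl)
    (fun u v hu hv => ?_) fun w c s e hl => ?_
  · simp only [hG u v hu hv, decTriple_encTriple]
  have key : ∀ n, (G (seg w 0 (n + 1))).2.1 = (w n : ℕ).testBit i ∧
      ((G (seg w 0 (n + 1))).2.2 = true ↔
        ∃ t < n, (w t : ℕ).testBit i = true ∧ (w (t + 1) : ℕ).testBit j = true) := by
    intro n
    induction n with
    | zero => simp [G, h, seg, foldVal]
    | succ n ih =>
      rw [seg_succ w (Nat.zero_le _),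
        show G (seg w 0 (n + 1) ++ [w (n + 1)]) = succOp (G (seg w 0 (n + 1))) (h (w (n + 1))) from
          foldVal_snoc (seg_ne_nil w (Nat.succ_pos n)) _]
      refine ⟨rfl, ?_⟩
      simp only [succOp, h, Bool.or_false, Bool.or_eq_true, Bool.and_eq_true, ih.1, ih.2]
      constructor
      · rintro (⟨t, ht, h⟩ | h)
        exacts [⟨t, by omega, h⟩, ⟨n, by omega, h⟩]
      · rintro ⟨t, ht, h⟩
        rcases Nat.lt_succ_iff_lt_or_eq.1 ht with ht | rfl
        exacts [.inl ⟨t, ht, h⟩, .inr h]
  have hk : ∀ k, ((decTriple s).2.2 = true ↔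
      ∃ t, t + 1 < c k ∧ (w t : ℕ).testBit i = true ∧ (w (t + 1) : ℕ).testBit j = true) := by
    intro k
    obtain ⟨n, hn⟩ : ∃ n, c k = n + 1 :=
      ⟨c k - 1, by have := hl.pos.trans_le (hl.mono.monotone (Nat.zero_le k)); omega⟩
    rw [← hl.prefix_val k, decTriple_encTriple, hn, (key n).2]
    simp only [Nat.add_lt_add_iff_right]
  change (∃ x, x ∈ assignment w i ∧ x + 1 ∈ assignment w j) ↔ _
  constructor
  · rintro ⟨t, ht⟩
    exact (hk (t + 2)).2 ⟨t, lt_of_lt_of_le (by omega) hl.mono.le_apply, ht⟩
  · intro hs
    obtain ⟨t, -, ht⟩ := (hk 0).1 hs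
    exact ⟨t, ht⟩

theorem isTableFor_not {B : ℕ} {r : Table} {L : Set (ℕ → Letter B)} (h : IsTableFor B r L) :
    IsTableFor B (notTable B r) Lᶜ := by
  refine isTableFor_mkTable (wordVal B r) h.bound (fun a => rfl) h.hom fun w c s e hl => ?_
  simpa using h.rec'.not w c s e hl

theorem isTableFor_and {B : ℕ} {r q : Table} {L L' : Set (ℕ → Letter B)}
    (h : IsTableFor B r L) (h' : IsTableFor B q L') :
    IsTableFor B (andTable B r q) (L ∩ L') := by
  have hdiv : ∀ l, l ≠ [] →
      (wordVal B r l * q.1 + wordVal B q l) / q.1 = wordVal B r l ∧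
      (wordVal B r l * q.1 + wordVal B q l) % q.1 = wordVal B q l := fun l hl => by
    have hq := h'.bound l hl
    constructor
    · rw [Nat.mul_comm, Nat.mul_add_div (by omega), Nat.div_eq_of_lt hq, Nat.add_zero]
    · rw [Nat.mul_comm, Nat.mul_add_mod, Nat.mod_eq_of_lt hq]
  refine isTableFor_mkTable (fun l => wordVal B r l * q.1 + wordVal B q l) (fun l hl => ?_)
    (fun a => rfl) (fun u v hu hv => ?_) fun w c s e hl => ?_
  · calc wordVal B r l * q.1 + wordVal B q l < wordVal B r l * q.1 + q.1 :=
          Nat.add_lt_add_left (h'.bound l hl) _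
      _ = (wordVal B r l + 1) * q.1 := by ring
      _ ≤ r.1 * q.1 := Nat.mul_le_mul_right _ (h.bound l hl)
  · simp only [(hdiv u hu).1, (hdiv u hu).2, (hdiv v hv).1, (hdiv v hv).2, h.hom u v hu hv,
      h'.hom u v hu hv]
  · simp only [Bool.and_eq_true]
    exact and_congr (h.rec' w c _ _ (hl.map (· / q.1) fun l hl => ((hdiv l hl).1).symm))
      (h'.rec' w c _ _ (hl.map (· % q.1) fun l hl => ((hdiv l hl).2).symm))

theorem isTableFor_ex {B i : ℕ} (hi : i < B) {r : Table} {φ : Formula}
    (h : IsTableFor B r (models B φ)) : IsTableFor B (exTable B i r) (models B (.ex i φ)) := by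
  classical
  have := h.finite_range
  let R : Letter B → Letter B → Prop := fun a b => agreeOff i a b = true
  let F : List (Letter B) → ℕ := fun l =>
    maskOf r.1 fun x => decide (∃ v, List.Forall₂ R l v ∧ wordVal B r v = x)
  have hne : ∀ {l v : List (Letter B)}, List.Forall₂ R l v → l ≠ [] → v ≠ [] := by
    rintro l v hf hl rfl
    exact hl (List.forall₂_nil_right_iff.1 hf)
  have hmem : ∀ l, l ≠ [] → ∀ x,
      (F l).testBit x = true ↔ ∃ v, List.Forall₂ R l v ∧ wordVal B r v = x := fun l hl x => by
    simp only [F, testBit_maskOf, decide_eq_true_eq, and_iff_right_iff_imp]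
    rintro ⟨v, hv, rfl⟩
    exact h.bound v (hne hv hl)
  have hlang : models B (.ex i φ) = project R (models B φ) := by
    ext w
    constructor
    · rintro ⟨X, hX⟩
      let v : ℕ → Letter B := fun n => ⟨Nat.ofBits fun k : Fin B =>
        if (k : ℕ) = i then decide (n ∈ X) else (w n : ℕ).testBit k, Nat.ofBits_lt_two_pow _⟩
      have hv : ∀ n k, (v n : ℕ).testBit k =
          if k = i then decide (n ∈ X) else (w n : ℕ).testBit k := fun n k => by
        rcases lt_or_ge k B with hk | hk
        · exact Nat.testBit_ofBits_lt _ k hk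
        · rw [if_neg (by omega), Nat.testBit_lt_two_pow ((w n).2.trans_le
            (Nat.pow_le_pow_right Nat.two_pos hk))]
          exact Nat.testBit_ofBits_ge _ k hk
      refine ⟨v, fun n => agreeOff_iff.2 fun k hk => by rw [hv, if_neg hk], ?_⟩
      change φ.Realize (assignment v)
      convert hX using 1
      funext k
      by_cases hk : k = i
      · subst hk
        rw [Function.update_self]
        ext n
        simp [assignment, hv]
      · rw [Function.update_of_ne hk]
        ext n
        simp [assignment, hv, hk]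
    · rintro ⟨v, hR, hv⟩
      refine ⟨assignment v i, ?_⟩
      change φ.Realize (assignment v) at hv
      convert hv using 1
      funext k
      by_cases hk : k = i
      · subst hk
        simp
      · rw [Function.update_of_ne hk]
        ext n
        simp [assignment, agreeOff_iff.1 (hR n) k hk]
  rw [hlang]
  refine isTableFor_mkTable F (fun l _ => maskOf_lt _ _) (fun a => ?_) (fun u v hu hv => ?_)
    fun w c P E hl => ?_
  · refine Nat.eq_of_testBit_eq fun x => Bool.eq_iff_iff.2 ?_
    rw [hmem [a] (List.cons_ne_nil _ _)]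
    simp only [exLetter, testBit_maskOf, anyBelow_iff, Bool.and_eq_true, decide_eq_true_eq]
    constructor
    · rintro ⟨v, hf, rfl⟩
      obtain ⟨b, v', hab, hnil, rfl⟩ := List.forall₂_cons_left_iff.1 hf
      obtain rfl := List.forall₂_nil_left_iff.1 hnil
      exact ⟨h.bound _ (List.cons_ne_nil _ _), b, b.2, hab, rfl⟩
    · rintro ⟨-, b, hb, hab, rfl⟩
      exact ⟨[⟨b, hb⟩], .cons hab .nil, rfl⟩
  · refine Nat.eq_of_testBit_eq fun x => Bool.eq_iff_iff.2 ?_
    rw [hmem _ (by simp [hu])]
    simp only [exMul, testBit_maskOf, anyBelow_iff, Bool.and_eq_true, decide_eq_true_eq, hmem u hu,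
      hmem v hv]
    constructor
    · rintro ⟨l, hf, rfl⟩
      obtain ⟨l₁, l₂, h1, h2, rfl⟩ := forall₂_append_left_iff.1 hf
      exact ⟨h.bound _ (by simp [hne h1 hu]), _, h.bound _ (hne h1 hu), ⟨l₁, h1, rfl⟩, _,
        h.bound _ (hne h2 hv), ⟨l₂, h2, rfl⟩, (h.hom _ _ (hne h1 hu) (hne h2 hv)).symm⟩
    · rintro ⟨-, _, -, ⟨l₁, h1, rfl⟩, _, -, ⟨l₂, h2, rfl⟩, rfl⟩
      exact ⟨l₁ ++ l₂, List.rel_append h1 h2, h.hom _ _ (hne h1 hu) (hne h2 hv)⟩
  · refine (h.rec'.project h.hom (fun P x => P.testBit x = true) hmem w c P E hl).trans ?_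
    simp only [exAcc, anyBelow_iff, Bool.and_eq_true, decide_eq_true_eq]
    constructor
    · rintro ⟨s, e, hs, he, hee, hse, hacc⟩
      have hbound : ∀ {T x : ℕ} (l : List (Letter B)), l ≠ [] → F l = T → T.testBit x = true →
          x < r.1 := fun l _ hT hx => by
        rw [← hT] at hx
        exact (testBit_maskOf.1 hx).1
      exact ⟨s, hbound _ (seg_ne_nil w hl.pos) (hl.prefix_val 0) hs, hs, e,
        hbound _ (seg_ne_nil w (hl.mono Nat.one_pos)) (hl.block_val 0 1 Nat.one_pos) he,
        ⟨⟨he, hee⟩, hse⟩, hacc⟩
    · rintro ⟨s, -, hs, e, -, ⟨⟨he, hee⟩, hse⟩, hacc⟩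
      exact ⟨s, e, hs, he, hee, hse, hacc⟩

/-- **The table of a formula is correct.** -/
theorem isTableFor_tableAt (B : ℕ) (φ : Formula) : φ.code < B →
    IsTableFor B (tableAt B φ.code) (models B φ) := by
  induction φ with
  | sub i j =>
    intro _
    rw [tableAt_eq, code, if_pos (by omega), show 5 * Nat.pair i j / 5 = Nat.pair i j by omega,
      Nat.unpair_pair]
    exact isTableFor_sub B i j
  | succ i j =>
    intro _
    rw [tableAt_eq, code, if_neg (by omega), if_pos (by omega),
      show (5 * Nat.pair i j + 1) / 5 = Nat.pair i j by omega, Nat.unpair_pair]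
    exact isTableFor_succ B i j
  | not φ ih =>
    intro hB
    rw [tableAt_eq, code, if_neg (by omega), if_neg (by omega), if_pos (by omega),
      show (5 * φ.code + 2) / 5 = φ.code by omega]
    rw [code] at hB
    exact isTableFor_not (ih (by omega))
  | and φ ψ ih ih' =>
    intro hB
    rw [tableAt_eq, code, if_neg (by omega), if_neg (by omega), if_neg (by omega),
      if_pos (by omega),
      show (5 * Nat.pair φ.code ψ.code + 3) / 5 = Nat.pair φ.code ψ.code by omega, Nat.unpair_pair]
    rw [code] at hB
    have h1 := Nat.left_le_pair φ.code ψ.code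
    have h2 := Nat.right_le_pair φ.code ψ.code
    exact isTableFor_and (ih (by omega)) (ih' (by omega))
  | ex i φ ih =>
    intro hB
    rw [tableAt_eq, code, if_neg (by omega), if_neg (by omega), if_neg (by omega),
      if_neg (by omega),
      show (5 * Nat.pair i φ.code + 4) / 5 = Nat.pair i φ.code by omega, Nat.unpair_pair]
    rw [code] at hB
    have h1 := Nat.left_le_pair i φ.code
    have h2 := Nat.right_le_pair i φ.code
    exact isTableFor_ex (by omega) (ih (by omega))

/-- **The procedure is correct.** -/
theorem decideCode_iff (φ : Formula) :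
    decideCode φ.code = true ↔ φ.Realize fun _ => ∅ := by
  have h := isTableFor_tableAt (φ.code + 1) φ (Nat.lt_succ_self _)
  have := h.finite_range
  simp only [decideCode, anyBelow_iff, Bool.and_eq_true, decide_eq_true_eq]
  revert h
  generalize tableAt (φ.code + 1) φ.code = r at *
  intro h
  let a : Letter (φ.code + 1) := ⟨0, Nat.two_pow_pos _⟩
  let w : ℕ → Letter (φ.code + 1) := fun _ => a
  have hw : assignment w = fun _ => ∅ := by
    funext i
    ext n
    simp [assignment, w, a]
  have hrep : ∀ m, powVal r m = wordVal _ r (List.replicate (m + 1) a) := fun m => by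
    induction m with
    | zero => rfl
    | succ m ih =>
      rw [List.replicate_succ' (n := m + 1), wordVal, foldVal_snoc (by simp), ← wordVal, ← ih]
      rfl
  have hseg : ∀ x y, x < y → wordVal _ r (seg w x y) = powVal r (y - x - 1) := fun x y hxy => by
    rw [hrep, show y - x - 1 + 1 = y - x by omega]
    congr 1
    simp [seg, w]
  have hsat : (φ.Realize fun _ => ∅) ↔ w ∈ models (φ.code + 1) φ := by
    rw [← hw]
    rfl
  rw [hsat]
  constructor
  · rintro ⟨m, -, hmm, hacc⟩
    let c : ℕ → ℕ := fun k => (k + 1) * (m + 1)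
    have hc : StrictMono c := fun x y hxy =>
      Nat.mul_lt_mul_of_pos_right (by omega) (Nat.succ_pos m)
    refine (h.rec' w c _ _
      (Linked.of_blocks h.hom hc (by simp [c]) ?_ (fun k => ?_) hmm hmm)).2 hacc
    · rw [hseg _ _ (by simp [c])]
      simp [c]
    · rw [hseg _ _ (hc (Nat.lt_succ_self k))]
      congr 1
      simp only [c]
      rw [Nat.succ_mul (k + 1)]
      omega
  · intro hmem
    obtain ⟨c, s, e, hl⟩ := exists_linked_id h.hom w
    -- both values are powers of the letter
    have hper : ∀ m, ∃ m' < r.1 + 1, powVal r m' = powVal r m := by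
      obtain ⟨x, hx, y, hy, hne, heq⟩ := Finset.exists_ne_map_eq_of_card_lt_of_maps_to
        (s := Finset.range (r.1 + 1)) (t := Finset.range r.1) (by simp) (f := powVal r)
        fun m _ => Finset.mem_coe.2 (Finset.mem_range.2 (hrep m ▸ h.bound _ (by simp)))
      wlog hxy : x < y generalizing x y
      · exact this y hy x hx hne.symm heq.symm (by omega)
      have hshift : ∀ k, powVal r (y + k) = powVal r (x + k) := fun k => by
        induction k with
        | zero => exact heq.symm
        | succ k ih =>
          change tableMul r (powVal r (y + k)) (letterVal r 0) = _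
          rw [ih]
          rfl
      intro m
      induction m using Nat.strong_induction_on with
      | _ m ih =>
        rcases lt_or_ge m (r.1 + 1) with hm | hm
        · exact ⟨m, hm, rfl⟩
        · obtain ⟨k, rfl⟩ := Nat.exists_eq_add_of_le
            (show y ≤ m by have := Finset.mem_range.1 hy; omega)
          rw [hshift k]
          exact ih (x + k) (by omega)
    have h01 : c 0 < c 1 := hl.mono Nat.one_pos
    obtain ⟨m, hm, hme⟩ := hper (c 1 - c 0 - 1)
    have he : powVal r m = e := by rw [hme, ← hseg _ _ h01, hl.block_val 0 1 Nat.one_pos]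
    refine ⟨m, hm, he.symm ▸ hl.idem h.hom, ?_⟩
    let d : ℕ → ℕ := fun k => (k + 1) * (m + 1)
    have hd : StrictMono d := fun x y hxy =>
      Nat.mul_lt_mul_of_pos_right (by omega) (Nat.succ_pos m)
    refine (h.rec' w d _ _ (Linked.of_blocks h.hom hd (by simp [d]) ?_ (fun k => ?_)
      (he.symm ▸ hl.idem h.hom) (he.symm ▸ hl.idem h.hom))).1 hmem
    · rw [hseg _ _ (by simp [d])]
      simp [d]
    · rw [hseg _ _ (hd (Nat.lt_succ_self k))]
      congr 1
      simp only [d]
      rw [Nat.succ_mul (k + 1)]
      omega

/-- **Definable sets are accepted by automata.** -/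
theorem IsDefinable.recognizable {k : ℕ} {L : Set (ℕ → Fin k → Bool)} (hL : IsDefinable L) :
    Recognizable L := by
  obtain ⟨φ, hφ⟩ := hL
  let B := φ.code + k + 1
  have h := isTableFor_tableAt B φ (show φ.code < B by simp only [B]; omega)
  have hrec : Recognizable (models B φ) := by
    refine ⟨Fin ((tableAt B φ.code).1 + 1), inferInstance,
      fun x y => Fin.ofNat _ (tableMul (tableAt B φ.code) x y),
      fun l => Fin.ofNat _ (wordVal B (tableAt B φ.code) l),
      fun s e => tableAcc (tableAt B φ.code) s e = true, fun u v hu hv => ?_, fun w c s e hl => ?_⟩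
    · have h1 := h.bound u hu
      have h2 := h.bound v hv
      ext
      simp [Nat.mod_eq_of_lt (Nat.lt_succ_of_lt h1), Nat.mod_eq_of_lt (Nat.lt_succ_of_lt h2),
        h.hom u v hu hv]
    · refine h.rec' w c _ _ (hl.map (val := wordVal B (tableAt B φ.code))
        (fun x => x.val) fun l hl => ?_)
      simp [Nat.mod_eq_of_lt (Nat.lt_succ_of_lt (h.bound l hl))]
  have e : L = project (fun (x : Fin k → Bool) (a : Letter B) =>
      ∀ i, (a : ℕ).testBit i = if hi : i < k then x ⟨i, hi⟩ else false) (models B φ) := by
    ext w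
    constructor
    · intro hw
      let v : ℕ → Letter B := fun n => ⟨Nat.ofBits fun i : Fin B =>
        if hi : (i : ℕ) < k then w n ⟨i, hi⟩ else false, Nat.ofBits_lt_two_pow _⟩
      refine ⟨v, fun n i => ?_, (hφ _).2 ?_⟩
      · rcases lt_or_ge i B with hi | hi
        · exact Nat.testBit_ofBits_lt _ i hi
        · rw [dif_neg (by simp only [B] at hi; omega)]
          exact Nat.testBit_ofBits_ge _ i hi
      · convert hw using 1
        funext n i
        have hiB : (i : ℕ) < B := by have := i.2; simp only [B]; omega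
        rw [Bool.eq_iff_iff, wordOf_eq_true]
        simp [assignment, v, hiB]
    · rintro ⟨v, hR, hv⟩
      have := (hφ _).1 hv
      convert this using 1
      funext n i
      rw [Bool.eq_iff_iff, wordOf_eq_true]
      simp [assignment, hR n i]
  rw [e]
  exact hrec.project _

end FA.Buchi
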