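import Fermat.Agent.Buchi.Automata
import Mathlib.Computability.Primrec.List

/-!
# The monadic second order logic of one successor

Formulas in the set variables only, with inclusion and successor as atoms, a bijective numbering
of them, the definable notions, and the formula of an automaton.
-/

set_option autoImplicit false

namespace FA.Buchi

/-- A formula of the logic. -/
inductive Formula : Type where
  | sub (i j : ℕ)
  | succ (i j : ℕ)
  | not (φ : Formula)
  | and (φ ψ : Formula)
  | ex (i : ℕ) (φ : Formula)

namespace Formula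

/-- Truth under an assignment of sets of naturals. -/
def Realize : Formula → (ℕ → Set ℕ) → Prop
  | .sub i j, V => V i ⊆ V j
  | .succ i j, V => ∃ x, x ∈ V i ∧ x + 1 ∈ V j
  | .not φ, V => ¬φ.Realize V
  | .and φ ψ, V => φ.Realize V ∧ ψ.Realize V
  | .ex i φ, V => ∃ X, φ.Realize (Function.update V i X)

/-- The number of a formula. -/
def code : Formula → ℕ
  | .sub i j => 5 * Nat.pair i j
  | .succ i j => 5 * Nat.pair i j + 1
  | .not φ => 5 * φ.code + 2
  | .and φ ψ => 5 * Nat.pair φ.code ψ.code + 3
  | .ex i φ => 5 * Nat.pair i φ.code + 4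

/-- The formula with a given number. -/
def ofCode (n : ℕ) : Formula :=
  if n % 5 = 0 then .sub (n / 5).unpair.1 (n / 5).unpair.2
  else if n % 5 = 1 then .succ (n / 5).unpair.1 (n / 5).unpair.2
  else if n % 5 = 2 then .not (ofCode (n / 5))
  else if n % 5 = 3 then .and (ofCode (n / 5).unpair.1) (ofCode (n / 5).unpair.2)
  else .ex (n / 5).unpair.1 (ofCode (n / 5).unpair.2)
termination_by n
decreasing_by
  all_goals
    have := Nat.unpair_left_le (n / 5)
    have := Nat.unpair_right_le (n / 5)
    omega

theorem ofCode_code (φ : Formula) : ofCode φ.code = φ := by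
  induction φ with
  | sub i j =>
    rw [ofCode, code, if_pos (by omega), show 5 * Nat.pair i j / 5 = Nat.pair i j by omega,
      Nat.unpair_pair]
  | succ i j =>
    rw [ofCode, code, if_neg (by omega), if_pos (by omega),
      show (5 * Nat.pair i j + 1) / 5 = Nat.pair i j by omega, Nat.unpair_pair]
  | not φ ih =>
    rw [ofCode, code, if_neg (by omega), if_neg (by omega), if_pos (by omega),
      show (5 * φ.code + 2) / 5 = φ.code by omega, ih]
  | and φ ψ ih ih' =>
    rw [ofCode, code, if_neg (by omega), if_neg (by omega), if_neg (by omega), if_pos (by omega),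
      show (5 * Nat.pair φ.code ψ.code + 3) / 5 = Nat.pair φ.code ψ.code by omega,
      Nat.unpair_pair, ih, ih']
  | ex i φ ih =>
    rw [ofCode, code, if_neg (by omega), if_neg (by omega), if_neg (by omega), if_neg (by omega),
      show (5 * Nat.pair i φ.code + 4) / 5 = Nat.pair i φ.code by omega, Nat.unpair_pair, ih]

theorem code_ofCode (n : ℕ) : (ofCode n).code = n := by
  induction n using Nat.strong_induction_on with
  | _ n ih =>
    have h1 := Nat.unpair_left_le (n / 5)
    have h2 := Nat.unpair_right_le (n / 5)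
    rw [ofCode]
    split_ifs with a b c d
    · simp only [code, Nat.pair_unpair]
      omega
    · simp only [code, Nat.pair_unpair]
      omega
    · simp only [code]
      rw [ih _ (by omega)]
      omega
    · simp only [code]
      rw [ih _ (by omega), ih _ (by omega), Nat.pair_unpair]
      omega
    · simp only [code]
      rw [ih _ (by omega), Nat.pair_unpair]
      omega

/-- The numbering as a bijection. -/
def numbering : Formula ≃ ℕ where
  toFun := code
  invFun := ofCode
  left_inv := ofCode_code
  right_inv := code_ofCode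

instance : Primcodable Formula :=
  Primcodable.ofEquiv ℕ numbering

/-- The free variables. -/
def freeVars : Formula → Finset ℕ
  | .sub i j => {i, j}
  | .succ i j => {i, j}
  | .not φ => φ.freeVars
  | .and φ ψ => φ.freeVars ∪ ψ.freeVars
  | .ex i φ => φ.freeVars.erase i

theorem realize_congr (φ : Formula) : ∀ {V W : ℕ → Set ℕ},
    (∀ i ∈ φ.freeVars, V i = W i) → (φ.Realize V ↔ φ.Realize W) := by
  induction φ with
  | sub i j =>
    intro V W h
    simp only [Realize, h i (by simp [freeVars]), h j (by simp [freeVars])]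
  | succ i j =>
    intro V W h
    simp only [Realize, h i (by simp [freeVars]), h j (by simp [freeVars])]
  | not φ ih =>
    intro V W h
    exact not_congr (ih h)
  | and φ ψ ih ih' =>
    intro V W h
    exact and_congr (ih fun i hi => h i (by simp [freeVars, hi]))
      (ih' fun i hi => h i (by simp [freeVars, hi]))
  | ex i φ ih =>
    intro V W h
    refine exists_congr fun X => ih fun j hj => ?_
    by_cases hji : j = i
    · simp [hji]
    · rw [Function.update_of_ne hji, Function.update_of_ne hji]
      exact h j (by simp [freeVars, hji, hj])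

/-- Disjunction. -/
def or (φ ψ : Formula) : Formula := .not (.and (.not φ) (.not ψ))

/-- Implication. -/
def imp (φ ψ : Formula) : Formula := .not (.and φ (.not ψ))

/-- Universal quantification. -/
def all (i : ℕ) (φ : Formula) : Formula := .not (.ex i (.not φ))

variable {V : ℕ → Set ℕ} {φ ψ : Formula} {i : ℕ}

@[simp] theorem realize_or : (or φ ψ).Realize V ↔ φ.Realize V ∨ ψ.Realize V := by
  simp only [or, Realize]
  tauto

@[simp] theorem realize_imp : (imp φ ψ).Realize V ↔ (φ.Realize V → ψ.Realize V) := by
  simp only [imp, Realize]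
  tauto

@[simp] theorem realize_all :
    (all i φ).Realize V ↔ ∀ X, φ.Realize (Function.update V i X) := by
  simp [all, Realize]

/-- A conjunction of a list. -/
def conj (l : List Formula) : Formula := l.foldr .and (.sub 0 0)

/-- A disjunction of a list. -/
def disj (l : List Formula) : Formula := .not (conj (l.map .not))

@[simp] theorem realize_conj (l : List Formula) :
    (conj l).Realize V ↔ ∀ φ ∈ l, φ.Realize V := by
  induction l with
  | nil => simp [conj, Realize]
  | cons a l ih =>
    simp only [conj, List.foldr_cons, Realize, List.forall_mem_cons]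
    exact and_congr_right fun _ => ih

@[simp] theorem realize_disj (l : List Formula) :
    (disj l).Realize V ↔ ∃ φ ∈ l, φ.Realize V := by
  simp [disj, Realize]

theorem realize_disj_map {ι : Type} (l : List ι) (f : ι → Formula) :
    (disj (l.map f)).Realize V ↔ ∃ x ∈ l, (f x).Realize V := by
  simp

/-- The variable `x` is a singleton; `y` and `z` are auxiliary. -/
def sing (x y z : ℕ) : Formula :=
  .and (.not (all z (.sub x z))) (all y (imp (.sub y x) (or (all z (.sub y z)) (.sub x y))))

theorem realize_sing {x y z : ℕ} (hxy : x ≠ y) (hxz : x ≠ z) (hyz : y ≠ z) :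
    (sing x y z).Realize V ↔ ∃ a, V x = {a} := by
  have hempty : ∀ S : Set ℕ, (∀ Z : Set ℕ, S ⊆ Z) ↔ S = ∅ := fun S =>
    ⟨fun h => Set.subset_empty_iff.1 (h ∅), fun h Z => h ▸ Set.empty_subset Z⟩
  simp only [sing, Realize, realize_all, realize_imp, realize_or, Function.update_self,
    Function.update_of_ne hxy, Function.update_of_ne hxz, Function.update_of_ne hyz, hempty]
  constructor
  · rintro ⟨hne, h⟩
    obtain ⟨a, ha⟩ := Set.nonempty_iff_ne_empty.2 hne
    refine ⟨a, Set.Subset.antisymm ?_ (Set.singleton_subset_iff.2 ha)⟩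
    exact (h {a} (Set.singleton_subset_iff.2 ha)).resolve_left (Set.singleton_ne_empty a)
  · rintro ⟨a, ha⟩
    rw [ha]
    refine ⟨Set.singleton_ne_empty a, fun Y hY => ?_⟩
    rcases Set.subset_singleton_iff_eq.1 hY with h | h
    exacts [.inl h, .inr h.ge]

/-- The variable `Z` is closed under successor; `c` to `e` are auxiliary. -/
def closedUp (Z p q c d : ℕ) : Formula :=
  all p (all q (imp (.and (.and (sing p c d) (sing q c d)) (.and (.sub p Z) (.succ p q)))
    (.sub q Z)))

theorem realize_closedUp {Z p q c d : ℕ} (hnd : [Z, p, q, c, d].Nodup) :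
    (closedUp Z p q c d).Realize V ↔ ∀ n ∈ V Z, n + 1 ∈ V Z := by
  simp only [List.nodup_cons, List.mem_cons, List.not_mem_nil, or_false, not_or, List.nodup_nil,
    and_true] at hnd
  obtain ⟨⟨hZp, hZq, -, -⟩, ⟨hpq, hpc, hpd⟩, ⟨hqc, hqd⟩, hcd, -⟩ := hnd
  simp only [closedUp, realize_all, realize_imp, Realize, realize_sing hpc hpd hcd,
    realize_sing hqc hqd hcd, Function.update_self, Function.update_of_ne hpq,
    Function.update_of_ne hZp, Function.update_of_ne hZq]
  constructor
  · intro h n hn
    simpa using h {n} {n + 1}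
      ⟨⟨⟨n, rfl⟩, ⟨n + 1, rfl⟩⟩, by simpa using hn, n, rfl, rfl⟩
  · rintro h P Q ⟨⟨⟨a, rfl⟩, ⟨b, rfl⟩⟩, hP, x, hx, hx'⟩
    rw [Set.mem_singleton_iff] at hx hx'
    subst hx hx'
    simpa using h x (by simpa using hP)

/-- The element of `x` is below that of `y`; the other variables are auxiliary. -/
def less (x y Z p q c d : ℕ) : Formula :=
  all Z (imp (.and (closedUp Z p q c d) (all q (imp (.and (sing q c d) (.succ x q)) (.sub q Z))))
    (.sub y Z))

theorem realize_less {x y Z p q c d a b : ℕ} (hnd : [x, y, Z, p, q, c, d].Nodup)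
    (hx : V x = {a}) (hy : V y = {b}) : (less x y Z p q c d).Realize V ↔ a < b := by
  have hnd' : [Z, p, q, c, d].Nodup := hnd.sublist (by simp)
  simp only [List.nodup_cons, List.mem_cons, List.not_mem_nil, or_false, not_or, List.nodup_nil,
    and_true] at hnd
  obtain ⟨⟨-, hxZ, -, hxq, -, -⟩, ⟨hyZ, -, -, -, -⟩, ⟨-, hZq, -, -⟩, -, ⟨hqc, hqd⟩, hcd, -⟩ := hnd
  simp only [less, realize_all, realize_imp, Realize, realize_closedUp hnd',
    realize_sing hqc hqd hcd, Function.update_self, Function.update_of_ne hxq,
    Function.update_of_ne hxZ, Function.update_of_ne hyZ, Function.update_of_ne hZq, hx, hy,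
    Set.singleton_subset_iff]
  constructor
  · intro h
    exact h {n | a < n} ⟨fun n hn => Nat.lt_succ_of_lt hn,
      by
        rintro Q ⟨⟨m, rfl⟩, n, hn, hm⟩
        simp only [Set.mem_singleton_iff] at hn hm
        subst hn hm
        simp⟩
  · intro hab Z' ⟨hcl, hsucc⟩
    have h1 : a + 1 ∈ Z' := by
      simpa using hsucc {a + 1} ⟨⟨a + 1, rfl⟩, a, rfl, rfl⟩
    exact Nat.le_induction h1 (fun n _ hn => hcl n hn) b (Nat.succ_le_of_lt hab)

/-- Existential quantification over a list of variables. -/
def exList (l : List ℕ) (φ : Formula) : Formula := l.foldr .ex φ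

theorem realize_exList (l : List ℕ) (φ : Formula) : ∀ V, (exList l φ).Realize V ↔
    ∃ W : ℕ → Set ℕ, (∀ i, i ∉ l → W i = V i) ∧ φ.Realize W := by
  induction l with
  | nil =>
    intro V
    simp only [exList, List.foldr_nil, List.not_mem_nil, not_false_eq_true, forall_true_left]
    exact ⟨fun h => ⟨V, fun _ => rfl, h⟩, fun ⟨W, hW, h⟩ => funext hW ▸ h⟩
  | cons j l ih =>
    intro V
    simp only [exList, List.foldr_cons, Realize]
    constructor
    · rintro ⟨X, hX⟩
      obtain ⟨W, hW, h⟩ := (ih _).1 hX
      exact ⟨W, fun i hi => by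
        rw [List.mem_cons, not_or] at hi
        rw [hW i hi.2, Function.update_of_ne hi.1], h⟩
    · rintro ⟨W, hW, h⟩
      refine ⟨W j, (ih _).2 ⟨W, fun i hi => ?_, h⟩⟩
      by_cases hij : i = j
      · simp [hij]
      · rw [Function.update_of_ne hij]
        exact hW i (by simp [hij, hi])

end Formula

/-- The word of the first `k` variables of an assignment. -/
noncomputable def wordOf (k : ℕ) (V : ℕ → Set ℕ) (n : ℕ) (i : Fin k) : Bool :=
  (V i).boolIndicator n

theorem wordOf_eq_true {k : ℕ} {V : ℕ → Set ℕ} {n : ℕ} {i : Fin k} :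
    wordOf k V n i = true ↔ n ∈ V i :=
  (Set.mem_iff_boolIndicator _ _).symm

/-- A set of words is definable in the logic. -/
def IsDefinable {k : ℕ} (L : Set (ℕ → Fin k → Bool)) : Prop :=
  ∃ φ : Formula, ∀ V, φ.Realize V ↔ wordOf k V ∈ L

open Formula in
/-- **The formula of an automaton.** -/
theorem IsOmegaRegular.isDefinable {k : ℕ} {L : Set (ℕ → Fin k → Bool)} (h : IsOmegaRegular L) :
    IsDefinable L := by
  classical
  obtain ⟨M, rfl⟩ := h
  have := M.finite_state
  obtain ⟨m, ⟨eq⟩⟩ := Finite.exists_equiv_fin M.State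
  let st : M.State → ℕ := fun q => k + eq q
  let a := k + m
  let b := k + m + 1
  let c := k + m + 2
  let d := k + m + 3
  let Z := k + m + 4
  let p := k + m + 5
  let q' := k + m + 6
  let states := (Finset.univ : Finset (Fin m)).toList.map eq.symm
  have hstates : ∀ q, q ∈ states := fun q =>
    List.mem_map.2 ⟨eq q, Finset.mem_toList.2 (Finset.mem_univ _), eq.symm_apply_apply q⟩
  let letters := (Finset.univ : Finset (Fin k → Bool)).toList
  let isLetter : (Fin k → Bool) → Formula := fun l =>
    conj ((Finset.univ : Finset (Fin k)).toList.map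
    fun i => if l i = true then .sub a i else .not (.sub a i))
  let one : Formula := all a (imp (sing a c d) (disj (states.map fun q => .and (.sub a (st q))
    (conj ((states.filter fun r => decide (r ≠ q)).map fun r => .not (.sub a (st r)))))))
  let start : Formula := all a (imp (.and (sing a c d) (.not (.ex b (.and (sing b c d)
    (.succ b a))))) (disj ((states.filter fun q => decide (q ∈ M.init)).map fun q =>
      .sub a (st q))))
  let moves : Formula := all a (all b (imp (.and (.and (sing a c d) (sing b c d)) (.succ a b))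
    (disj (states.flatMap fun q => letters.flatMap fun l =>
      (states.filter fun r => decide (r ∈ M.next q l)).map fun r =>
        .and (.and (.sub a (st q)) (.sub b (st r))) (isLetter l)))))
  let often : Formula := all a (imp (sing a c d) (.ex b (.and (.and (sing b c d)
    (less a b Z p q' c d)) (disj ((states.filter fun q => decide (q ∈ M.final)).map fun q =>
      .sub b (st q))))))
  refine ⟨exList (states.map st) (.and (.and one start) (.and moves often)), fun V => ?_⟩
  have hst_lt : ∀ q, st q < a := fun q => Nat.add_lt_add_left (eq q).2 k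
  have hab : a ≠ b := by simp only [a, b]; omega
  have hac : a ≠ c := by simp only [a, c]; omega
  have had : a ≠ d := by simp only [a, d]; omega
  have hbc : b ≠ c := by simp only [b, c]; omega
  have hbd : b ≠ d := by simp only [b, d]; omega
  have hcd : c ≠ d := by simp only [c, d]; omega
  have hsa : ∀ q, st q ≠ a := fun q => (hst_lt q).ne
  have hsb : ∀ q, st q ≠ b := fun q => by
    have := hst_lt q
    simp only [b, a] at *
    omega
  have hia : ∀ i : Fin k, (i : ℕ) ≠ a := fun i => by have := i.2; simp only [a]; omega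
  have hib : ∀ i : Fin k, (i : ℕ) ≠ b := fun i => by have := i.2; simp only [b]; omega
  have hnd : [a, b, Z, p, q', c, d].Nodup := by simp [a, b, c, d, Z, p, q']
  have hone : ∀ W, one.Realize W ↔
      ∀ n, ∃ q, n ∈ W (st q) ∧ ∀ r, r ≠ q → n ∉ W (st r) := fun W => by
    simp only [one, realize_all, realize_imp, realize_sing hac had hcd, realize_disj_map,
      realize_conj,
      List.forall_mem_map, List.mem_filter, decide_eq_true_eq,
      Realize, Function.update_self, Function.update_of_ne (hsa _)]
    constructor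
    · intro h n
      obtain ⟨q, -, h1, h2⟩ := h {n} ⟨n, rfl⟩
      exact ⟨q, by simpa using h1, fun r hr => by simpa using h2 r ⟨hstates r, hr⟩⟩
    · rintro h X ⟨n, rfl⟩
      obtain ⟨q, h1, h2⟩ := h n
      exact ⟨q, hstates q, by simpa using h1, fun r hr => by simpa using h2 r hr.2⟩
  have hstart : ∀ W, start.Realize W ↔ ∃ q ∈ M.init, 0 ∈ W (st q) := fun W => by
    simp only [start, realize_all, realize_imp, Realize, realize_sing hac had hcd,
      realize_sing hbc hbd hcd, realize_disj_map, List.mem_filter,
      decide_eq_true_eq, Function.update_self, Function.update_of_ne hab,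
      Function.update_of_ne (hsa _)]
    constructor
    · intro h
      obtain ⟨q, ⟨-, hq⟩, h1⟩ := h {0} ⟨⟨0, rfl⟩, fun ⟨_, _, x, _, hx⟩ => by simp at hx⟩
      exact ⟨q, hq, by simpa using h1⟩
    · rintro ⟨q, hq, h0⟩ X ⟨⟨n, rfl⟩, hn⟩
      have : n = 0 := by
        by_contra h
        exact hn ⟨{n - 1}, ⟨n - 1, rfl⟩, n - 1, rfl, by simp; omega⟩
      exact ⟨q, ⟨hstates q, hq⟩, by simpa [this] using h0⟩
  have hletter : ∀ (W : ℕ → Set ℕ) (n : ℕ) (l : Fin k → Bool), W a = {n} →
      ((isLetter l).Realize W ↔ wordOf k W n = l) := fun W n l hW => by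
    simp only [isLetter, realize_conj, List.forall_mem_map, Finset.mem_toList, Finset.mem_univ,
      forall_true_left, funext_iff]
    refine forall_congr' fun i => ?_
    cases hl : l i
    · simp [Realize, hW, ← wordOf_eq_true]
    · simp [Realize, hW, ← wordOf_eq_true]
  have hmoves : ∀ W, moves.Realize W ↔
      ∀ n, ∃ q r, r ∈ M.next q (wordOf k W n) ∧ n ∈ W (st q) ∧ n + 1 ∈ W (st r) := fun W => by
    simp only [moves, realize_all, realize_imp, Realize, realize_sing hac had hcd,
      realize_sing hbc hbd hcd, realize_disj, List.mem_flatMap, Function.update_self,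
      Function.update_of_ne hab]
    have hW : ∀ (X Y : Set ℕ) n, wordOf k (Function.update (Function.update W a X) b Y) n =
        wordOf k W n := fun X Y n => funext fun i => by
      simp [wordOf, Function.update_of_ne (hib i), Function.update_of_ne (hia i)]
    constructor
    · intro h n
      obtain ⟨φ, ⟨q, -, l, -, hmem⟩, hφ⟩ := h {n} {n + 1} ⟨⟨⟨n, rfl⟩, ⟨n + 1, rfl⟩⟩, n, rfl, rfl⟩
      simp only [List.mem_map, List.mem_filter, decide_eq_true_eq] at hmem
      obtain ⟨r, ⟨-, hr⟩, rfl⟩ := hmem
      obtain ⟨⟨h1, h2⟩, h3⟩ := hφ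
      rw [hletter _ n l (by simp [Function.update_of_ne hab]), hW] at h3
      refine ⟨q, r, h3 ▸ hr, ?_, ?_⟩
      · simpa [Realize, Function.update_of_ne hab, Function.update_of_ne (hsb q),
          Function.update_of_ne (hsa q)] using h1
      · simpa [Realize, Function.update_of_ne (hsb r), Function.update_of_ne (hsa r)] using h2
    · rintro h X Y ⟨⟨⟨n, rfl⟩, ⟨n', rfl⟩⟩, x, hx, hx'⟩
      rw [Set.mem_singleton_iff] at hx hx'
      subst hx hx'
      obtain ⟨q, r, hr, h1, h2⟩ := h x
      refine ⟨_, ⟨q, hstates q, wordOf k W x, Finset.mem_toList.2 (Finset.mem_univ _),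
        List.mem_map.2 ⟨r, List.mem_filter.2 ⟨hstates r, decide_eq_true hr⟩, rfl⟩⟩, ⟨?_, ?_⟩, ?_⟩
      · simpa [Realize, Function.update_of_ne hab, Function.update_of_ne (hsb q),
          Function.update_of_ne (hsa q)] using h1
      · simpa [Realize, Function.update_of_ne (hsb r), Function.update_of_ne (hsa r)] using h2
      · rw [hletter _ x _ (by simp [Function.update_of_ne hab]), hW]
  have hoften : ∀ W, often.Realize W ↔
      ∀ N, ∃ n, N < n ∧ ∃ q ∈ M.final, n ∈ W (st q) := fun W => by
    simp only [often, realize_all, realize_imp, Realize, realize_sing hac had hcd,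
      realize_sing hbc hbd hcd, realize_disj_map, List.mem_filter,
      decide_eq_true_eq, Function.update_self, Function.update_of_ne (hsb _),
      Function.update_of_ne (hsa _)]
    constructor
    · intro h N
      obtain ⟨Y, ⟨⟨n, hY⟩, hlt⟩, q, ⟨-, hq⟩, hn⟩ := h {N} ⟨N, rfl⟩
      rw [realize_less hnd (a := N) (b := n) (by simp [Function.update_of_ne hab])
        (by simp [hY])] at hlt
      exact ⟨n, hlt, q, hq, by simpa [hY] using hn⟩
    · rintro h X ⟨N, rfl⟩
      obtain ⟨n, hn, q, hq, hqn⟩ := h N
      refine ⟨{n}, ⟨⟨n, rfl⟩, ?_⟩, q, ⟨hstates q, hq⟩, by simpa using hqn⟩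
      rw [realize_less hnd (a := N) (b := n) (by simp [Function.update_of_ne hab]) (by simp)]
      exact hn
  simp only [realize_exList, Realize, hone, hstart, hmoves, hoften]
  have hword : ∀ W : ℕ → Set ℕ, (∀ i, i ∉ states.map st → W i = V i) →
      wordOf k W = wordOf k V := fun W hW => funext fun n => funext fun i => by
    simp only [wordOf]
    rw [hW i fun hi => by
      obtain ⟨q, -, hq⟩ := List.mem_map.1 hi
      have := i.2
      simp only [st] at hq
      omega]
  constructor
  · rintro ⟨W, hW, ⟨h1, q₀, hq₀, h0⟩, h3, h4⟩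
    choose r hr hru using h1
    have huniq : ∀ n q, n ∈ W (st q) → r n = q := fun n q hq =>
      by_contra fun h => hru n q (Ne.symm h) hq
    refine ⟨r, huniq 0 q₀ h0 ▸ hq₀, fun n => ?_, fun N => ?_⟩
    · obtain ⟨q, q₁, hq₁, hn, hn1⟩ := h3 n
      rw [huniq n q hn, huniq (n + 1) q₁ hn1, ← hword W hW]
      exact hq₁
    · obtain ⟨n, hn, q, hq, hqn⟩ := h4 N
      exact ⟨n, hn, huniq n q hqn ▸ hq⟩
  · rintro ⟨r, h0, hr, hinf⟩
    let W : ℕ → Set ℕ := fun i => if i ∈ states.map st then {n | st (r n) = i} else V i
    have hWst : ∀ q, W (st q) = {n | r n = q} := fun q => by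
      have hinj : ∀ q₁ q₂, st q₁ = st q₂ → q₁ = q₂ := fun q₁ q₂ h =>
        eq.injective (Fin.ext (Nat.add_left_cancel h))
      simp only [W, if_pos (List.mem_map.2 ⟨q, hstates q, rfl⟩)]
      exact Set.ext fun n => ⟨fun h => hinj _ _ h, fun h => congrArg st h⟩
    have hW : ∀ i, i ∉ states.map st → W i = V i := fun i hi => if_neg hi
    refine ⟨W, hW, ⟨fun n => ⟨r n, ?_, fun q hq => ?_⟩, r 0, h0, ?_⟩, fun n => ?_, fun N => ?_⟩
    · simp [hWst]
    · simp [hWst, Ne.symm hq]
    · simp [hWst]
    · refine ⟨r n, r (n + 1), ?_, by simp [hWst], by simp [hWst]⟩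
      rw [hword W hW]
      exact hr n
    · obtain ⟨n, hn, hq⟩ := hinf N
      exact ⟨n, hn, r n, hq, by simp [hWst]⟩

end FA.Buchi
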