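import Fermat.Agent.Root.SummaryEllentuck
import Mathlib.Data.Nat.Nth

/-!
# Recognition of infinite words by finite multiplication tables

A value of nonempty finite words that is multiplicative splits every infinite word, by the theorem
of Ramsey, into a prefix and blocks of constant values. A set of infinite words is recognizable
when membership depends only on these two values.
-/

set_option autoImplicit false

namespace FA.Buchi

/-- The factor of `w` on the positions from `i` to `j - 1`. -/
def seg {α : Type} (w : ℕ → α) (i j : ℕ) : List α :=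
  (List.range (j - i)).map fun t => w (i + t)

variable {α β S S' T : Type}

@[simp] theorem length_seg (w : ℕ → α) (i j : ℕ) : (seg w i j).length = j - i := by
  simp [seg]

theorem seg_ne_nil (w : ℕ → α) {i j : ℕ} (h : i < j) : seg w i j ≠ [] := by
  intro he
  have := congrArg List.length he
  simp at this
  omega

theorem seg_append (w : ℕ → α) {i j k : ℕ} (hij : i ≤ j) (hjk : j ≤ k) :
    seg w i j ++ seg w j k = seg w i k := by
  rw [seg, seg, seg, show k - i = (j - i) + (k - j) by omega, List.range_add, List.map_append,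
    List.map_map]
  congr 1
  refine List.map_congr_left fun t _ => ?_
  simp only [Function.comp_apply]
  congr 1
  omega

theorem seg_succ (w : ℕ → α) {i j : ℕ} (h : i ≤ j) : seg w i (j + 1) = seg w i j ++ [w j] := by
  rw [← seg_append w h (Nat.le_succ j)]
  simp [seg]

theorem forall₂_seg {R : α → β → Prop} (w : ℕ → α) (v : ℕ → β) (a b : ℕ) :
    List.Forall₂ R (seg w a b) (seg v a b) ↔ ∀ n, a ≤ n → n < b → R (w n) (v n) := by
  simp only [seg, List.forall₂_map_left_iff, List.forall₂_map_right_iff, List.forall₂_same,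
    List.mem_range]
  exact ⟨fun h n h1 h2 => by simpa [Nat.add_sub_cancel' h1] using h (n - a) (by omega),
    fun h t ht => h (a + t) (by omega) (by omega)⟩

/-- Pieces on consecutive intervals glue to one function. -/
theorem exists_glue {d : ℕ → ℕ} (hd : StrictMono d) (f : ℕ → ℕ → β) :
    ∃ v : ℕ → β, ∀ k t, d k + t < d (k + 1) → v (d k + t) = f k t := by
  have hex : ∀ n, ∃ k, n < d (k + 1) := fun n => ⟨n, Nat.lt_of_succ_le hd.le_apply⟩
  refine ⟨fun n => f (Nat.find (hex n)) (n - d (Nat.find (hex n))), fun k t hkt => ?_⟩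
  have hk : Nat.find (hex (d k + t)) = k := (Nat.find_eq_iff _).2
    ⟨hkt, fun m hm h => by
      have := hd.monotone (show m + 1 ≤ k by omega)
      omega⟩
  simp only [hk]
  congr 1
  omega

theorem exists_interval {d : ℕ → ℕ} (hd : StrictMono d) (hd0 : d 0 = 0) (n : ℕ) :
    ∃ k, d k ≤ n ∧ n < d (k + 1) := by
  have hex : ∃ k, n < d (k + 1) := ⟨n, Nat.lt_of_succ_le hd.le_apply⟩
  refine ⟨Nat.find hex, ?_, Nat.find_spec hex⟩
  rcases Nat.eq_zero_or_pos (Nat.find hex) with h | h
  · rw [h, hd0]
    exact Nat.zero_le n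
  · have := Nat.find_min hex (Nat.sub_lt h Nat.one_pos)
    rw [Nat.sub_add_cancel h, not_lt] at this
    exact this

/-- `val` is multiplicative on nonempty words. -/
def IsHom (mul : S → S → S) (val : List α → S) : Prop :=
  ∀ u v, u ≠ [] → v ≠ [] → val (u ++ v) = mul (val u) (val v)

/-- The cuts `c` split `w` into a prefix of value `s` and blocks of value `e`. -/
structure Linked (val : List α → S) (w : ℕ → α) (c : ℕ → ℕ) (s e : S) : Prop where
  pos : 0 < c 0
  mono : StrictMono c
  prefix_val : ∀ i, val (seg w 0 (c i)) = s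
  block_val : ∀ i j, i < j → val (seg w (c i) (c j)) = e

variable {mul : S → S → S} {val : List α → S} {w : ℕ → α} {c : ℕ → ℕ} {s e : S}

theorem Linked.idem (hv : IsHom mul val) (h : Linked val w c s e) : mul e e = e := by
  have h01 := h.mono (show 0 < 1 by omega)
  have h12 := h.mono (show 1 < 2 by omega)
  have := h.block_val 0 2 (by omega)
  rwa [← seg_append w h01.le h12.le, hv _ _ (seg_ne_nil w h01) (seg_ne_nil w h12),
    h.block_val 0 1 (by omega), h.block_val 1 2 (by omega)] at this

theorem Linked.absorb (hv : IsHom mul val) (h : Linked val w c s e) : mul s e = s := by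
  have h01 := h.mono (show 0 < 1 by omega)
  have := h.prefix_val 1
  rwa [← seg_append w (Nat.zero_le _) h01.le, hv _ _ (seg_ne_nil w h.pos) (seg_ne_nil w h01),
    h.prefix_val 0, h.block_val 0 1 (by omega)] at this

/-- Consecutive blocks determine the values. -/
theorem Linked.of_blocks (hv : IsHom mul val) (hc : StrictMono c) (h0 : 0 < c 0)
    (hs : val (seg w 0 (c 0)) = s) (he : ∀ k, val (seg w (c k) (c (k + 1))) = e)
    (hee : mul e e = e) (hse : mul s e = s) : Linked val w c s e := by
  refine ⟨h0, hc, fun i => ?_, fun i j hij => ?_⟩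
  · induction i with
    | zero => exact hs
    | succ i ih =>
      have hi : 0 < c i := h0.trans_le (hc.monotone (Nat.zero_le i))
      rw [← seg_append w (Nat.zero_le _) (hc (Nat.lt_succ_self i)).le,
        hv _ _ (seg_ne_nil w hi) (seg_ne_nil w (hc (Nat.lt_succ_self i))), ih, he, hse]
  · obtain ⟨d, rfl⟩ := Nat.exists_eq_add_of_lt hij
    clear hij
    induction d with
    | zero => exact he i
    | succ d ih =>
      have h1 : c i < c (i + d + 1) := hc (by omega)
      have h2 : c (i + d + 1) < c (i + (d + 1) + 1) := hc (by omega)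
      rw [← seg_append w h1.le h2.le, hv _ _ (seg_ne_nil w h1) (seg_ne_nil w h2), ih,
        show i + (d + 1) + 1 = i + d + 1 + 1 by omega, he, hee]

/-- **Ramsey's decomposition.** Any cuts of any word have linked subsequences. -/
theorem exists_linked [Finite (Set.range val)] (hv : IsHom mul val) (w : ℕ → α) {c : ℕ → ℕ}
    (hc : StrictMono c) :
    ∃ g : ℕ → ℕ, StrictMono g ∧ ∃ s e, Linked val w (c ∘ g) s e := by
  classical
  have : Nonempty (Set.range val) := ⟨⟨val [], Set.mem_range_self _⟩⟩
  obtain ⟨H, hH, ⟨e, hemem⟩, he⟩ := Ellentuck.ramsey_infinite 2 fun t : Finset ℕ =>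
    if h : t.Nonempty then (⟨_, Set.mem_range_self (seg w (c (t.min' h + 1)) (c (t.max' h + 1)))⟩ :
      Set.range val) else ⟨val [], Set.mem_range_self _⟩
  let g : ℕ → ℕ := fun i => Nat.nth (· ∈ H) i + 1
  have hg : StrictMono g := fun i j h =>
    Nat.add_lt_add_right (Nat.nth_strictMono hH h) 1
  have hblock : ∀ i j, i < j → val (seg w (c (g i)) (c (g j))) = e := fun i j hij => by
    have hlt : Nat.nth (· ∈ H) i < Nat.nth (· ∈ H) j := Nat.nth_strictMono hH hij
    have := he {Nat.nth (· ∈ H) i, Nat.nth (· ∈ H) j} (Finset.card_pair hlt.ne) (by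
      simp only [Finset.coe_pair, Set.insert_subset_iff, Set.singleton_subset_iff]
      exact ⟨Nat.nth_mem_of_infinite hH i, Nat.nth_mem_of_infinite hH j⟩)
    simpa [g, Finset.min'_insert, Finset.max'_insert, hlt.le] using congrArg Subtype.val this
  refine ⟨fun i => g (i + 1), fun i j h => hg (Nat.add_lt_add_right h 1),
    mul (val (seg w 0 (c (g 0)))) e, e, ?_, fun i j h => hc (hg (Nat.add_lt_add_right h 1)),
    fun i => ?_, fun i j hij => hblock _ _ (Nat.add_lt_add_right hij 1)⟩
  · exact lt_of_le_of_lt (Nat.zero_le (c 0)) (hc (Nat.succ_pos _))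
  · have hpos : 0 < c (g 0) := lt_of_le_of_lt (Nat.zero_le (c 0)) (hc (Nat.succ_pos _))
    have hlt : c (g 0) < c (g (i + 1)) := hc (hg (Nat.succ_pos i))
    rw [Function.comp_apply, ← seg_append w (Nat.zero_le _) hlt.le,
      hv _ _ (seg_ne_nil w hpos) (seg_ne_nil w hlt), hblock 0 (i + 1) (Nat.succ_pos i)]

/-- Every word has a decomposition. -/
theorem exists_linked_id [Finite (Set.range val)] (hv : IsHom mul val) (w : ℕ → α) :
    ∃ c s e, Linked val w c s e := by
  obtain ⟨g, -, s, e, h⟩ := exists_linked hv w strictMono_id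
  exact ⟨_, s, e, h⟩

/-- Membership in `L` is read off from the two values of a decomposition. -/
def Recognizes (val : List α → S) (acc : S → S → Prop) (L : Set (ℕ → α)) : Prop :=
  ∀ w c s e, Linked val w c s e → (w ∈ L ↔ acc s e)

/-- Recognized by some finite table. -/
def Recognizable (L : Set (ℕ → α)) : Prop :=
  ∃ (S : Type) (_ : Finite S) (mul : S → S → S) (val : List α → S) (acc : S → S → Prop),
    IsHom mul val ∧ Recognizes val acc L

variable {acc : S → S → Prop} {L : Set (ℕ → α)}

theorem Recognizes.not (h : Recognizes val acc L) : Recognizes val (fun s e => ¬acc s e) Lᶜ :=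
  fun w c s e hl => not_congr (h w c s e hl)

theorem IsHom.prod {mulT : T → T → T} {valT : List α → T} (h : IsHom mul val)
    (h' : IsHom mulT valT) :
    IsHom (fun p q : S × T => (mul p.1 q.1, mulT p.2 q.2)) fun l => (val l, valT l) :=
  fun u v hu hv => Prod.ext (h u v hu hv) (h' u v hu hv)

theorem Linked.map {valT : List α → T} (f : T → S) (hf : ∀ l, l ≠ [] → val l = f (valT l))
    {s e : T} (h : Linked valT w c s e) : Linked val w c (f s) (f e) :=
  ⟨h.pos, h.mono,
    fun i => by
      rw [hf _ (seg_ne_nil w (h.pos.trans_le (h.mono.monotone (Nat.zero_le i)))), h.prefix_val i],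
    fun i j hij => by rw [hf _ (seg_ne_nil w (h.mono hij)), h.block_val i j hij]⟩

theorem Recognizes.and {valT : List α → T} {accT : T → T → Prop} {L' : Set (ℕ → α)}
    (h : Recognizes val acc L) (h' : Recognizes valT accT L') :
    Recognizes (fun l => (val l, valT l))
      (fun p q : S × T => acc p.1 q.1 ∧ accT p.2 q.2) (L ∩ L') :=
  fun w c _ _ hl => and_congr (h w c _ _ (hl.map Prod.fst fun _ _ => rfl))
    (h' w c _ _ (hl.map Prod.snd fun _ _ => rfl))

theorem Recognizable.compl (h : Recognizable L) : Recognizable Lᶜ := by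
  obtain ⟨S, hS, mul, val, acc, hv, hL⟩ := h
  exact ⟨S, hS, mul, val, _, hv, hL.not⟩

theorem Recognizable.inter {L' : Set (ℕ → α)} (h : Recognizable L) (h' : Recognizable L') :
    Recognizable (L ∩ L') := by
  obtain ⟨S, hS, mul, val, acc, hv, hL⟩ := h
  obtain ⟨T, hT, mulT, valT, accT, hvT, hL'⟩ := h'
  exact ⟨S × T, inferInstance, _, _, _, hv.prod hvT, hL.and hL'⟩

/-- The image of `L` under a letter-to-letter relation. -/
def project (R : α → β → Prop) (L : Set (ℕ → β)) : Set (ℕ → α) :=
  {w | ∃ v, (∀ n, R (w n) (v n)) ∧ v ∈ L}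

/-- **Projection.** Sets of values recognize the projection. -/
theorem Recognizes.project {R : α → β → Prop} {val : List β → S} [Finite (Set.range val)]
    {L : Set (ℕ → β)} (hv : IsHom mul val) (h : Recognizes val acc L) {val' : List α → S'}
    (mem : S' → S → Prop)
    (hmem : ∀ l, l ≠ [] → ∀ x, mem (val' l) x ↔ ∃ v, List.Forall₂ R l v ∧ val v = x) :
    Recognizes val'
      (fun P E => ∃ s e, mem P s ∧ mem E e ∧ mul e e = e ∧ mul s e = s ∧ acc s e)
      (FA.Buchi.project R L) := by
  intro w c P E hl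
  constructor
  · rintro ⟨v, hR, hvL⟩
    obtain ⟨g, hg, s, e, hsub⟩ := exists_linked hv v hl.mono
    refine ⟨s, e, ?_, ?_, hsub.idem hv, hsub.absorb hv, (h v _ s e hsub).1 hvL⟩
    · rw [← hl.prefix_val (g 0), hmem _ (seg_ne_nil w (show 0 < c (g 0) from hsub.pos))]
      exact ⟨seg v 0 (c (g 0)), (forall₂_seg _ _ _ _).2 fun n _ _ => hR n, hsub.prefix_val 0⟩
    · have hlt : g 0 < g 1 := hg (by omega)
      rw [← hl.block_val _ _ hlt, hmem _ (seg_ne_nil w (hl.mono hlt))]
      exact ⟨seg v (c (g 0)) (c (g 1)), (forall₂_seg _ _ _ _).2 fun n _ _ => hR n,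
        hsub.block_val 0 1 (by omega)⟩
  · rintro ⟨s, e, hs, he, hee, hse, hacc⟩
    let d : ℕ → ℕ := fun k => Nat.rec 0 (fun j _ => c j) k
    have hd : StrictMono d := strictMono_nat_of_lt_succ fun k => by
      cases k with
      | zero => exact hl.pos
      | succ k => exact hl.mono (Nat.lt_succ_self k)
    let tgt : ℕ → S := fun k => if k = 0 then s else e
    have hpiece : ∀ k, ∃ v, List.Forall₂ R (seg w (d k) (d (k + 1))) v ∧ val v = tgt k := by
      intro k
      refine (hmem _ (seg_ne_nil w (hd (Nat.lt_succ_self k))) (tgt k)).1 ?_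
      cases k with
      | zero =>
        change mem (val' (seg w 0 (c 0))) s
        rwa [hl.prefix_val 0]
      | succ k =>
        change mem (val' (seg w (c k) (c (k + 1)))) e
        rwa [hl.block_val k (k + 1) (Nat.lt_succ_self k)]
    choose l hRl hvl using hpiece
    have hnemp : Nonempty β := by
      obtain ⟨b, -⟩ := List.exists_mem_of_ne_nil (l 0) fun h0 => by
        have := (hRl 0).length_eq
        rw [h0, length_seg] at this
        have := hd (show 0 < 1 by omega)
        simp at *
        omega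
      exact ⟨b⟩
    obtain ⟨v, hvv⟩ := exists_glue hd fun k t => (l k).getD t (Classical.arbitrary β)
    have hseg : ∀ k, seg v (d k) (d (k + 1)) = l k := fun k => by
      have hlen := (hRl k).length_eq
      rw [length_seg] at hlen
      refine List.ext_getElem (by rw [length_seg, hlen]) fun t h1 h2 => ?_
      rw [length_seg] at h1
      simp only [seg, List.getElem_map, List.getElem_range]
      rw [hvv k t (by omega), List.getD_eq_getElem _ _ h2]
    refine ⟨v, fun n => ?_, (h v c s e ?_).2 hacc⟩
    · obtain ⟨k, h1, h2⟩ := exists_interval hd rfl n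
      exact (forall₂_seg w v (d k) (d (k + 1))).1 (by rw [hseg]; exact hRl k) n h1 h2
    · refine Linked.of_blocks hv hl.mono hl.pos ?_ (fun k => ?_) hee hse
      · exact (congrArg val (hseg 0)).trans (hvl 0)
      · exact (congrArg val (hseg (k + 1))).trans (hvl (k + 1))

theorem Recognizable.project {L : Set (ℕ → β)} (h : Recognizable L) (R : α → β → Prop) :
    Recognizable (FA.Buchi.project R L) := by
  obtain ⟨S, hS, mul, val, acc, hv, hL⟩ := h
  refine ⟨Set S, inferInstance, fun P Q => Set.image2 mul {x | x ∈ P} Q,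
    fun l => {x | ∃ v, List.Forall₂ R l v ∧ val v = x}, _, fun l₁ l₂ h₁ h₂ => ?_,
    hL.project hv (fun P x => x ∈ P) fun _ _ _ => Iff.rfl⟩
  ext x
  simp only [Set.mem_image2, Set.mem_ofPred_eq]
  constructor
  · rintro ⟨v, hf, rfl⟩
    obtain ⟨v₁, v₂, hf₁, hf₂, rfl⟩ : ∃ v₁ v₂, List.Forall₂ R l₁ v₁ ∧ List.Forall₂ R l₂ v₂ ∧
        v = v₁ ++ v₂ := ⟨v.take l₁.length, v.drop l₁.length,
      by simpa using List.forall₂_take l₁.length hf, by simpa using List.forall₂_drop l₁.length hf,
      (List.take_append_drop _ v).symm⟩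
    refine ⟨_, ⟨v₁, hf₁, rfl⟩, _, ⟨v₂, hf₂, rfl⟩, (hv v₁ v₂ ?_ ?_).symm⟩
    · rintro rfl
      exact h₁ (by simpa using hf₁)
    · rintro rfl
      exact h₂ (by simpa using hf₂)
  · rintro ⟨_, ⟨v₁, hf₁, rfl⟩, _, ⟨v₂, hf₂, rfl⟩, rfl⟩
    refine ⟨v₁ ++ v₂, List.rel_append hf₁ hf₂, hv v₁ v₂ ?_ ?_⟩
    · rintro rfl
      exact h₁ (by simpa using hf₁)
    · rintro rfl
      exact h₂ (by simpa using hf₂)

end FA.Buchi
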