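import Fermat.Agent.Buchi.Logic

/-!
# Multiplication tables as lists of numbers

Finite tables recognizing the atoms, complements, intersections and projections, with their
operations primitive recursive.
-/

set_option autoImplicit false

namespace FA.Buchi

/-- A table: size, values of the letters, products, accepted pairs. -/
abbrev Table : Type := ℕ × List ℕ × List ℕ × List Bool

/-- The value of a letter. -/
def letterVal (r : Table) (a : ℕ) : ℕ := r.2.1.getD a 0

/-- The product. -/
def tableMul (r : Table) (x y : ℕ) : ℕ := r.2.2.1.getD (x * r.1 + y) 0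

/-- The accepted pairs. -/
def tableAcc (r : Table) (s e : ℕ) : Bool := r.2.2.2.getD (s * r.1 + e) false

/-- Tabulation. -/
def mkTable (B N : ℕ) (h : ℕ → ℕ) (m : ℕ → ℕ → ℕ) (acc : ℕ → ℕ → Bool) : Table :=
  (N, (List.range (2 ^ B)).map h, (List.range (N * N)).map (fun k => m (k / N) (k % N)),
    (List.range (N * N)).map fun k => acc (k / N) (k % N))

theorem letterVal_mkTable {B N : ℕ} {h : ℕ → ℕ} {m : ℕ → ℕ → ℕ} {acc : ℕ → ℕ → Bool} {a : ℕ}
    (ha : a < 2 ^ B) : letterVal (mkTable B N h m acc) a = h a := by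
  simp [letterVal, mkTable, ha]

theorem tableMul_mkTable {B N : ℕ} {h : ℕ → ℕ} {m : ℕ → ℕ → ℕ} {acc : ℕ → ℕ → Bool} {x y : ℕ}
    (hx : x < N) (hy : y < N) :
    tableMul (mkTable B N h m acc) x y = m x y ∧ tableAcc (mkTable B N h m acc) x y = acc x y := by
  have hk : x * N + y < N * N := by
    calc x * N + y < x * N + N := by omega
      _ = (x + 1) * N := by ring
      _ ≤ N * N := Nat.mul_le_mul_right N hx
  have h1 : (x * N + y) / N = x := by
    rw [Nat.mul_comm, Nat.mul_add_div (by omega), Nat.div_eq_of_lt hy, Nat.add_zero]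
  have h2 : (x * N + y) % N = y := by
    rw [Nat.mul_comm, Nat.mul_add_mod, Nat.mod_eq_of_lt hy]
  simp [tableMul, tableAcc, mkTable, hk, h1, h2]

/-- Some number below `N` satisfies `p`. -/
def anyBelow (N : ℕ) (p : ℕ → Bool) : Bool :=
  ((List.range N).map p).foldr (fun b c => b || c) false

theorem anyBelow_iff {N : ℕ} {p : ℕ → Bool} : anyBelow N p = true ↔ ∃ x < N, p x = true := by
  have h : ∀ l : List Bool, l.foldr (fun b c => b || c) false = true ↔ true ∈ l := fun l => by
    induction l with
    | nil => simp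
    | cons a l ih => cases a <;> simp [ih]
  simp [anyBelow, h]

/-- The number with a given list of binary digits. -/
def bitsVal (l : List Bool) : ℕ :=
  l.foldr (fun b acc => cond b 1 0 + 2 * acc) 0

theorem testBit_bitsVal (l : List Bool) : ∀ x, (bitsVal l).testBit x = l.getD x false := by
  induction l with
  | nil => simp [bitsVal]
  | cons b l ih =>
    intro x
    have hb : bitsVal (b :: l) = cond b 1 0 + 2 * bitsVal l := rfl
    cases x with
    | zero => cases b <;> simp [hb, Nat.testBit_zero]
    | succ x =>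
      rw [Nat.testBit_succ, List.getD_cons_succ, ← ih x]
      congr 1
      cases b <;> simp [hb]; omega

/-- The set of the numbers below `N` satisfying `p`, as a number. -/
def maskOf (N : ℕ) (p : ℕ → Bool) : ℕ :=
  bitsVal ((List.range N).map p)

theorem testBit_maskOf {N : ℕ} {p : ℕ → Bool} {x : ℕ} :
    (maskOf N p).testBit x = true ↔ x < N ∧ p x = true := by
  rw [maskOf, testBit_bitsVal]
  by_cases hx : x < N
  · simp [hx]
  · simp [hx]

theorem maskOf_lt (N : ℕ) (p : ℕ → Bool) : maskOf N p < 2 ^ N :=
  Nat.lt_pow_two_of_testBit _ fun i hi => by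
    rw [maskOf, testBit_bitsVal]
    simp [hi]

/-- Two letters agree outside one bit. -/
def agreeOff (i a b : ℕ) : Bool :=
  decide (a / 2 ^ (i + 1) = b / 2 ^ (i + 1)) && decide (a % 2 ^ i = b % 2 ^ i)

theorem agreeOff_iff {i a b : ℕ} :
    agreeOff i a b = true ↔ ∀ k, k ≠ i → a.testBit k = b.testBit k := by
  simp only [agreeOff, Bool.and_eq_true, decide_eq_true_eq]
  constructor
  · rintro ⟨h1, h2⟩ k hk
    rcases lt_or_gt_of_ne hk with h | h
    · have := congrArg (fun x => x.testBit k) h2
      simpa [Nat.testBit_mod_two_pow, h] using this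
    · have := congrArg (fun x => x.testBit (k - (i + 1))) h1
      simpa [Nat.testBit_div_two_pow, Nat.sub_add_cancel (Nat.succ_le_of_lt h)] using this
  · refine fun h => ⟨Nat.eq_of_testBit_eq fun k => ?_, Nat.eq_of_testBit_eq fun k => ?_⟩
    · simpa [Nat.testBit_div_two_pow] using h (k + (i + 1)) (by omega)
    · by_cases hk : k < i
      · simpa [Nat.testBit_mod_two_pow, hk] using h k hk.ne
      · simp [Nat.testBit_mod_two_pow, hk]

/-- The table of inclusion. -/
def subTable (B i j : ℕ) : Table :=
  mkTable B 2 (fun a => cond (!a.testBit i || a.testBit j) 1 0) (fun x y => x * y)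
    fun s _ => decide (s = 1)

/-- The product of the summaries for successor. -/
def succOp (u v : Bool × Bool × Bool) : Bool × Bool × Bool :=
  (u.1, v.2.1, u.2.2 || v.2.2 || (u.2.1 && v.1))

/-- A summary as a number. -/
def encTriple (t : Bool × Bool × Bool) : ℕ :=
  cond t.1 1 0 + 2 * cond t.2.1 1 0 + 4 * cond t.2.2 1 0

/-- A number as a summary. -/
def decTriple (x : ℕ) : Bool × Bool × Bool := (x.testBit 0, x.testBit 1, x.testBit 2)

theorem decTriple_encTriple (t : Bool × Bool × Bool) : decTriple (encTriple t) = t := by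
  obtain ⟨a, b, c⟩ := t
  cases a <;> cases b <;> cases c <;> decide

theorem encTriple_lt (t : Bool × Bool × Bool) : encTriple t < 8 := by
  obtain ⟨a, b, c⟩ := t
  cases a <;> cases b <;> cases c <;> decide

/-- The table of successor. -/
def succTable (B i j : ℕ) : Table :=
  mkTable B 8 (fun a => encTriple (a.testBit j, a.testBit i, false))
    (fun x y => encTriple (succOp (decTriple x) (decTriple y))) fun s _ => (decTriple s).2.2

/-- The table of a complement. -/
def notTable (B : ℕ) (r : Table) : Table :=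
  mkTable B r.1 (letterVal r) (tableMul r) fun s e => !tableAcc r s e

/-- The table of an intersection. -/
def andTable (B : ℕ) (r q : Table) : Table :=
  mkTable B (r.1 * q.1) (fun a => letterVal r a * q.1 + letterVal q a)
    (fun x y => tableMul r (x / q.1) (y / q.1) * q.1 + tableMul q (x % q.1) (y % q.1))
    fun s e => tableAcc r (s / q.1) (e / q.1) && tableAcc q (s % q.1) (e % q.1)

/-- The values of the letters that project on `a`. -/
def exLetter (B i : ℕ) (r : Table) (a : ℕ) : ℕ :=
  maskOf r.1 fun x => anyBelow (2 ^ B) fun b => agreeOff i a b && decide (letterVal r b = x)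

/-- The product of sets of values. -/
def exMul (r : Table) (P Q : ℕ) : ℕ :=
  maskOf r.1 fun x => anyBelow r.1 fun y =>
    P.testBit y && anyBelow r.1 fun z => Q.testBit z && decide (tableMul r y z = x)

/-- Some linked pair inside is accepted. -/
def exAcc (r : Table) (P E : ℕ) : Bool :=
  anyBelow r.1 fun s => P.testBit s && anyBelow r.1 fun e =>
    E.testBit e && decide (tableMul r e e = e) && decide (tableMul r s e = s) && tableAcc r s e

/-- The table of a projection. -/
def exTable (B i : ℕ) (r : Table) : Table :=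
  mkTable B (2 ^ r.1) (exLetter B i r) (exMul r) (exAcc r)

/-- The table with number `n`, from those of the smaller numbers. -/
def stepTable (B : ℕ) (prev : List Table) : Table :=
  let n := prev.length
  let d : Table := (0, [], [], [])
  if n % 5 = 0 then subTable B (n / 5).unpair.1 (n / 5).unpair.2
  else if n % 5 = 1 then succTable B (n / 5).unpair.1 (n / 5).unpair.2
  else if n % 5 = 2 then notTable B (prev.getD (n / 5) d)
  else if n % 5 = 3 then
    andTable B (prev.getD (n / 5).unpair.1 d) (prev.getD (n / 5).unpair.2 d)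
  else exTable B (n / 5).unpair.1 (prev.getD (n / 5).unpair.2 d)

/-- The tables with numbers below `n`. -/
def tableList (B : ℕ) : ℕ → List Table
  | 0 => []
  | n + 1 => tableList B n ++ [stepTable B (tableList B n)]

/-- The table of the formula with number `n`. -/
def tableAt (B n : ℕ) : Table := stepTable B (tableList B n)

theorem tableList_eq (B n : ℕ) : tableList B n = (List.range n).map (tableAt B) := by
  induction n with
  | zero => rfl
  | succ n ih =>
    rw [List.range_succ, List.map_append, ← ih]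
    rfl

theorem tableAt_eq (B n : ℕ) : tableAt B n =
    if n % 5 = 0 then subTable B (n / 5).unpair.1 (n / 5).unpair.2
    else if n % 5 = 1 then succTable B (n / 5).unpair.1 (n / 5).unpair.2
    else if n % 5 = 2 then notTable B (tableAt B (n / 5))
    else if n % 5 = 3 then andTable B (tableAt B (n / 5).unpair.1) (tableAt B (n / 5).unpair.2)
    else exTable B (n / 5).unpair.1 (tableAt B (n / 5).unpair.2) := by
  have hlen : (tableList B n).length = n := by rw [tableList_eq]; simp
  have hget : ∀ m < n, (tableList B n).getD m (0, [], [], []) = tableAt B m := fun m hm => by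
    rw [tableList_eq]
    simp [hm]
  have h1 := Nat.unpair_left_le (n / 5)
  have h2 := Nat.unpair_right_le (n / 5)
  conv_lhs => rw [tableAt, stepTable, hlen]
  split_ifs with a b c d
  · rfl
  · rfl
  · rw [hget _ (by omega)]
  · rw [hget _ (by omega), hget _ (by omega)]
  · rw [hget _ (by omega)]

/-- The value of a power of the letter `0`. -/
def powVal (r : Table) (m : ℕ) : ℕ :=
  Nat.rec (motive := fun _ => ℕ) (letterVal r 0) (fun _ x => tableMul r x (letterVal r 0)) m

/-- The procedure. -/
def decideCode (c : ℕ) : Bool :=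
  anyBelow ((tableAt (c + 1) c).1 + 1) fun m =>
    decide (tableMul (tableAt (c + 1) c) (powVal (tableAt (c + 1) c) m)
      (powVal (tableAt (c + 1) c) m) = powVal (tableAt (c + 1) c) m) &&
    tableAcc (tableAt (c + 1) c) (powVal (tableAt (c + 1) c) m) (powVal (tableAt (c + 1) c) m)

section Computability

open Primrec

variable {α : Type} [Primcodable α]

theorem primrec_pow : Primrec₂ ((· ^ ·) : ℕ → ℕ → ℕ) :=
  Primrec₂.unpaired'.1 Nat.Primrec.pow

theorem primrec_testBit : Primrec₂ Nat.testBit :=
  ((Primrec.eq (α := ℕ)).decide.comp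
    (nat_mod.comp (nat_div.comp fst (primrec_pow.comp (const 2) snd)) (const 2))
    (const 1)).to₂.of_eq fun _ _ => (Nat.testBit_eq_decide_div_mod_eq).symm

theorem primrec_eqb {f g : α → ℕ} (hf : Primrec f) (hg : Primrec g) :
    Primrec fun a => decide (f a = g a) :=
  (Primrec.eq (α := ℕ)).decide.comp hf hg

theorem primrec_anyBelow {f : α → ℕ} {p : α → ℕ → Bool} (hf : Primrec f)
    (hp : Primrec fun q : α × ℕ => p q.1 q.2) : Primrec fun a => anyBelow (f a) (p a) :=
  list_foldr (list_map (list_range.comp hf) hp.to₂) (const false)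
    (Primrec.or.comp (fst.comp snd) (snd.comp snd)).to₂

theorem primrec_maskOf {f : α → ℕ} {p : α → ℕ → Bool} (hf : Primrec f)
    (hp : Primrec fun q : α × ℕ => p q.1 q.2) : Primrec fun a => maskOf (f a) (p a) :=
  list_foldr (list_map (list_range.comp hf) hp.to₂) (const 0)
    (nat_add.comp (Primrec.cond (fst.comp snd) (const 1) (const 0))
      (nat_mul.comp (const 2) (snd.comp snd))).to₂

theorem primrec_mkTable {B N : α → ℕ} {h : α → ℕ → ℕ} {m : α → ℕ → ℕ → ℕ}
    {acc : α → ℕ → ℕ → Bool} (hB : Primrec B) (hN : Primrec N)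
    (hh : Primrec fun q : α × ℕ => h q.1 q.2)
    (hm : Primrec fun q : α × ℕ × ℕ => m q.1 q.2.1 q.2.2)
    (hacc : Primrec fun q : α × ℕ × ℕ => acc q.1 q.2.1 q.2.2) :
    Primrec fun a => mkTable (B a) (N a) (h a) (m a) (acc a) := by
  have hdm : Primrec fun q : α × ℕ => (q.1, q.2 / N q.1, q.2 % N q.1) :=
    fst.pair ((nat_div.comp snd (hN.comp fst)).pair (nat_mod.comp snd (hN.comp fst)))
  exact hN.pair ((list_map (list_range.comp (primrec_pow.comp (const 2) hB)) hh.to₂).pair
    ((list_map (list_range.comp (nat_mul.comp hN hN)) (hm.comp hdm).to₂).pair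
      (list_map (list_range.comp (nat_mul.comp hN hN)) (hacc.comp hdm).to₂)))

theorem primrec_letterVal : Primrec₂ letterVal :=
  ((list_getD 0).comp (fst.comp (snd.comp fst)) snd).to₂

theorem primrec_tableMul {r : α → Table} {x y : α → ℕ} (hr : Primrec r) (hx : Primrec x)
    (hy : Primrec y) : Primrec fun a => tableMul (r a) (x a) (y a) :=
  (list_getD 0).comp (fst.comp (snd.comp (snd.comp hr)))
    (nat_add.comp (nat_mul.comp hx (fst.comp hr)) hy)

theorem primrec_tableAcc {r : α → Table} {x y : α → ℕ} (hr : Primrec r) (hx : Primrec x)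
    (hy : Primrec y) : Primrec fun a => tableAcc (r a) (x a) (y a) :=
  (list_getD false).comp (snd.comp (snd.comp (snd.comp hr)))
    (nat_add.comp (nat_mul.comp hx (fst.comp hr)) hy)

attribute [local irreducible] letterVal tableMul tableAcc mkTable anyBelow maskOf Nat.testBit

theorem primrec_subTable : Primrec fun q : ℕ × ℕ × ℕ => subTable q.1 q.2.1 q.2.2 :=
  primrec_mkTable fst (const 2)
    (Primrec.cond (Primrec.or.comp
      (Primrec.not.comp (primrec_testBit.comp snd (fst.comp (snd.comp fst))))
      (primrec_testBit.comp snd (snd.comp (snd.comp fst)))) (const 1) (const 0))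
    (nat_mul.comp (fst.comp snd) (snd.comp snd)) (primrec_eqb (fst.comp snd) (const 1))

theorem primrec_encTriple : Primrec encTriple :=
  nat_add.comp (nat_add.comp (Primrec.cond fst (const 1) (const 0))
    (nat_mul.comp (const 2) (Primrec.cond (fst.comp snd) (const 1) (const 0))))
    (nat_mul.comp (const 4) (Primrec.cond (snd.comp snd) (const 1) (const 0)))

theorem primrec_decTriple : Primrec decTriple :=
  (primrec_testBit.comp .id (const 0)).pair
    ((primrec_testBit.comp .id (const 1)).pair (primrec_testBit.comp .id (const 2)))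

theorem primrec_succOp : Primrec₂ succOp :=
  ((fst.comp fst).pair ((fst.comp (snd.comp snd)).pair
    (Primrec.or.comp (Primrec.or.comp (snd.comp (snd.comp fst)) (snd.comp (snd.comp snd)))
      (Primrec.and.comp (fst.comp (snd.comp fst)) (fst.comp snd))))).to₂

theorem primrec_succTable : Primrec fun q : ℕ × ℕ × ℕ => succTable q.1 q.2.1 q.2.2 :=
  primrec_mkTable fst (const 8)
    (primrec_encTriple.comp ((primrec_testBit.comp snd (snd.comp (snd.comp fst))).pair
      ((primrec_testBit.comp snd (fst.comp (snd.comp fst))).pair (const false))))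
    (primrec_encTriple.comp (primrec_succOp.comp (primrec_decTriple.comp (fst.comp snd))
      (primrec_decTriple.comp (snd.comp snd))))
    (snd.comp (snd.comp (primrec_decTriple.comp (fst.comp snd))))

theorem primrec_notTable : Primrec₂ notTable := by
  have hr : Primrec fun q : (ℕ × Table) × ℕ × ℕ => q.1.2 := snd.comp fst
  have hm := primrec_tableMul hr (fst.comp snd) (snd.comp snd)
  have ha := Primrec.not.comp (primrec_tableAcc hr (fst.comp snd) (snd.comp snd))
  have hr' : Primrec fun q : (ℕ × Table) × ℕ => q.1.2 := snd.comp fst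
  have hh := primrec_letterVal.comp hr' snd
  exact (primrec_mkTable (B := fun a : ℕ × Table => a.1) (N := fun a => a.2.1)
    (h := fun a => letterVal a.2) (m := fun a => tableMul a.2)
    (acc := fun a s e => !tableAcc a.2 s e) fst (fst.comp snd) hh hm ha).to₂

theorem primrec_andTable : Primrec fun q : ℕ × Table × Table => andTable q.1 q.2.1 q.2.2 := by
  have hr : Primrec fun q : (ℕ × Table × Table) × ℕ × ℕ => q.1.2.1 := fst.comp (snd.comp fst)
  have hq : Primrec fun q : (ℕ × Table × Table) × ℕ × ℕ => q.1.2.2 := snd.comp (snd.comp fst)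
  have hd : Primrec fun q : (ℕ × Table × Table) × ℕ × ℕ => q.1.2.2.1 := fst.comp hq
  have hx : Primrec fun q : (ℕ × Table × Table) × ℕ × ℕ => q.2.1 := fst.comp snd
  have hy : Primrec fun q : (ℕ × Table × Table) × ℕ × ℕ => q.2.2 := snd.comp snd
  have hm := nat_add.comp
    (nat_mul.comp (primrec_tableMul hr (nat_div.comp hx hd) (nat_div.comp hy hd)) hd)
    (primrec_tableMul hq (nat_mod.comp hx hd) (nat_mod.comp hy hd))
  have ha := Primrec.and.comp (primrec_tableAcc hr (nat_div.comp hx hd) (nat_div.comp hy hd))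
    (primrec_tableAcc hq (nat_mod.comp hx hd) (nat_mod.comp hy hd))
  have hr' : Primrec fun q : (ℕ × Table × Table) × ℕ => q.1.2.1 := fst.comp (snd.comp fst)
  have hq' : Primrec fun q : (ℕ × Table × Table) × ℕ => q.1.2.2 := snd.comp (snd.comp fst)
  have hh := nat_add.comp (nat_mul.comp (primrec_letterVal.comp hr' snd) (fst.comp hq'))
    (primrec_letterVal.comp hq' snd)
  have hN : Primrec fun q : ℕ × Table × Table => q.2.1.1 * q.2.2.1 :=
    nat_mul.comp (fst.comp (fst.comp snd)) (fst.comp (snd.comp snd))
  exact primrec_mkTable (B := fun q : ℕ × Table × Table => q.1) fst hN hh hm ha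

theorem primrec_agreeOff {i a b : α → ℕ} (hi : Primrec i) (ha : Primrec a) (hb : Primrec b) :
    Primrec fun q => agreeOff (i q) (a q) (b q) := by
  have h1 : Primrec fun q => 2 ^ (i q + 1) := primrec_pow.comp (const 2) (succ.comp hi)
  have h2 : Primrec fun q => 2 ^ i q := primrec_pow.comp (const 2) hi
  exact Primrec.and.comp
    (primrec_eqb (nat_div.comp ha h1) (nat_div.comp hb h1))
    (primrec_eqb (nat_mod.comp ha h2) (nat_mod.comp hb h2))

theorem primrec_exLetter :
    Primrec fun q : (ℕ × ℕ × Table) × ℕ => exLetter q.1.1 q.1.2.1 q.1.2.2 q.2 := by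
  have hi : Primrec fun q : (((ℕ × ℕ × Table) × ℕ) × ℕ) × ℕ => q.1.1.1.2.1 :=
    fst.comp (snd.comp (fst.comp (fst.comp fst)))
  have hr : Primrec fun q : (((ℕ × ℕ × Table) × ℕ) × ℕ) × ℕ => q.1.1.1.2.2 :=
    snd.comp (snd.comp (fst.comp (fst.comp fst)))
  have ha : Primrec fun q : (((ℕ × ℕ × Table) × ℕ) × ℕ) × ℕ => q.1.1.2 :=
    snd.comp (fst.comp fst)
  have hx : Primrec fun q : (((ℕ × ℕ × Table) × ℕ) × ℕ) × ℕ => q.1.2 := snd.comp fst
  have hB : Primrec fun q : ((ℕ × ℕ × Table) × ℕ) × ℕ => 2 ^ q.1.1.1 :=
    primrec_pow.comp (const 2) (fst.comp (fst.comp fst))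
  have hin := Primrec.and.comp (primrec_agreeOff hi ha snd)
    (primrec_eqb (primrec_letterVal.comp hr snd) hx)
  have hany := primrec_anyBelow (f := fun q : ((ℕ × ℕ × Table) × ℕ) × ℕ => 2 ^ q.1.1.1)
    (p := fun q b => agreeOff q.1.1.2.1 q.1.2 b && decide (letterVal q.1.1.2.2 b = q.2)) hB hin
  exact primrec_maskOf (f := fun q : (ℕ × ℕ × Table) × ℕ => q.1.2.2.1)
    (p := fun q x => anyBelow (2 ^ q.1.1) fun b =>
      agreeOff q.1.2.1 q.2 b && decide (letterVal q.1.2.2 b = x))
    (fst.comp (snd.comp (snd.comp fst))) hany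

theorem primrec_exMul : Primrec fun q : Table × ℕ × ℕ => exMul q.1 q.2.1 q.2.2 := by
  have hr : Primrec fun q : (((Table × ℕ × ℕ) × ℕ) × ℕ) × ℕ => q.1.1.1.1 :=
    fst.comp (fst.comp (fst.comp fst))
  have hQ : Primrec fun q : (((Table × ℕ × ℕ) × ℕ) × ℕ) × ℕ => q.1.1.1.2.2 :=
    snd.comp (snd.comp (fst.comp (fst.comp fst)))
  have hx : Primrec fun q : (((Table × ℕ × ℕ) × ℕ) × ℕ) × ℕ => q.1.1.2 := snd.comp (fst.comp fst)
  have hy : Primrec fun q : (((Table × ℕ × ℕ) × ℕ) × ℕ) × ℕ => q.1.2 := snd.comp fst
  have h3 := Primrec.and.comp (primrec_testBit.comp hQ snd)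
    (primrec_eqb (primrec_tableMul hr hy snd) hx)
  have h2' := primrec_anyBelow (f := fun q : ((Table × ℕ × ℕ) × ℕ) × ℕ => q.1.1.1.1)
    (p := fun q z => q.1.1.2.2.testBit z && decide (tableMul q.1.1.1 q.2 z = q.1.2))
    (fst.comp (fst.comp (fst.comp fst))) h3
  have hP : Primrec fun q : ((Table × ℕ × ℕ) × ℕ) × ℕ => q.1.1.2.1 :=
    fst.comp (snd.comp (fst.comp fst))
  have h2 := Primrec.and.comp (primrec_testBit.comp hP snd) h2'
  have h1 := primrec_anyBelow (f := fun q : (Table × ℕ × ℕ) × ℕ => q.1.1.1)
    (p := fun q y => q.1.2.1.testBit y && anyBelow q.1.1.1 fun z =>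
      q.1.2.2.testBit z && decide (tableMul q.1.1 y z = q.2))
    (fst.comp (fst.comp fst)) h2
  exact primrec_maskOf (f := fun q : Table × ℕ × ℕ => q.1.1)
    (p := fun q x => anyBelow q.1.1 fun y => q.2.1.testBit y && anyBelow q.1.1 fun z =>
      q.2.2.testBit z && decide (tableMul q.1 y z = x)) (fst.comp fst) h1

theorem primrec_exAcc : Primrec fun q : Table × ℕ × ℕ => exAcc q.1 q.2.1 q.2.2 := by
  have hr : Primrec fun q : ((Table × ℕ × ℕ) × ℕ) × ℕ => q.1.1.1 := fst.comp (fst.comp fst)
  have hs : Primrec fun q : ((Table × ℕ × ℕ) × ℕ) × ℕ => q.1.2 := snd.comp fst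
  have hE : Primrec fun q : ((Table × ℕ × ℕ) × ℕ) × ℕ => q.1.1.2.2 :=
    snd.comp (snd.comp (fst.comp fst))
  have h3 := Primrec.and.comp (Primrec.and.comp (Primrec.and.comp (primrec_testBit.comp hE snd)
    (primrec_eqb (primrec_tableMul hr snd snd) snd))
    (primrec_eqb (primrec_tableMul hr hs snd) hs)) (primrec_tableAcc hr hs snd)
  have h2' := primrec_anyBelow (f := fun q : (Table × ℕ × ℕ) × ℕ => q.1.1.1)
    (p := fun q e => q.1.2.2.testBit e && decide (tableMul q.1.1 e e = e) &&
      decide (tableMul q.1.1 q.2 e = q.2) && tableAcc q.1.1 q.2 e)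
    (fst.comp (fst.comp fst)) h3
  have hP : Primrec fun q : (Table × ℕ × ℕ) × ℕ => q.1.2.1 := fst.comp (snd.comp fst)
  have h2 := Primrec.and.comp (primrec_testBit.comp hP snd) h2'
  exact primrec_anyBelow (f := fun q : Table × ℕ × ℕ => q.1.1)
    (p := fun q s => q.2.1.testBit s && anyBelow q.1.1 fun e =>
      q.2.2.testBit e && decide (tableMul q.1 e e = e) && decide (tableMul q.1 s e = s) &&
        tableAcc q.1 s e) (fst.comp fst) h2

theorem primrec_exTable : Primrec fun q : ℕ × ℕ × Table => exTable q.1 q.2.1 q.2.2 := by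
  have hN : Primrec fun q : ℕ × ℕ × Table => 2 ^ q.2.2.1 :=
    primrec_pow.comp (const 2) (fst.comp (snd.comp snd))
  have hr : Primrec fun q : (ℕ × ℕ × Table) × ℕ × ℕ => (q.1.2.2, q.2) :=
    (snd.comp (snd.comp fst)).pair snd
  have hm := primrec_exMul.comp hr
  have ha := primrec_exAcc.comp hr
  exact primrec_mkTable (B := fun q : ℕ × ℕ × Table => q.1) (N := fun q => 2 ^ q.2.2.1)
    (h := fun q => exLetter q.1 q.2.1 q.2.2) (m := fun q => exMul q.2.2)
    (acc := fun q => exAcc q.2.2) fst hN primrec_exLetter hm ha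

theorem primrec_stepTable : Primrec₂ stepTable := by
  have hn : Primrec fun q : ℕ × List Table => q.2.length := list_length.comp snd
  have hk : Primrec fun q : ℕ × List Table => q.2.length / 5 := nat_div.comp hn (const 5)
  have hl := fst.comp (Primrec.unpair.comp hk)
  have hr := snd.comp (Primrec.unpair.comp hk)
  have hg : ∀ {f : ℕ × List Table → ℕ}, Primrec f →
      Primrec fun q : ℕ × List Table => q.2.getD (f q) ((0, [], [], []) : Table) :=
    fun hf => (list_getD _).comp snd hf
  have hmod : ∀ r : ℕ, PrimrecPred fun q : ℕ × List Table => q.2.length % 5 = r := fun r =>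
    (Primrec.eq (α := ℕ)).comp (nat_mod.comp hn (const 5)) (const r)
  exact (Primrec.ite (hmod 0) (primrec_subTable.comp (fst.pair (hl.pair hr)))
    (Primrec.ite (hmod 1) (primrec_succTable.comp (fst.pair (hl.pair hr)))
      (Primrec.ite (hmod 2) (primrec_notTable.comp fst (hg hk))
        (Primrec.ite (hmod 3) (primrec_andTable.comp (fst.pair ((hg hl).pair (hg hr))))
          (primrec_exTable.comp (fst.pair (hl.pair (hg hr)))))))).to₂

theorem primrec_tableAt : Primrec₂ tableAt :=
  Primrec.nat_strong_rec tableAt (g := fun B prev => some (stepTable B prev))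
    (option_some.comp primrec_stepTable).to₂ fun B n => by rw [← tableList_eq]; rfl

theorem primrec_powVal : Primrec₂ powVal := by
  have h0 : Primrec fun r : Table => letterVal r 0 := primrec_letterVal.comp .id (const 0)
  have hs := primrec_tableMul (α := Table × ℕ × ℕ) fst (snd.comp snd) (h0.comp fst)
  exact Primrec.nat_rec h0 hs.to₂

theorem primrec_decideCode : Primrec decideCode := by
  have hR : Primrec fun c => tableAt (c + 1) c := primrec_tableAt.comp succ .id
  have hR' : Primrec fun q : ℕ × ℕ => tableAt (q.1 + 1) q.1 := hR.comp fst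
  have hp : Primrec fun q : ℕ × ℕ => powVal (tableAt (q.1 + 1) q.1) q.2 :=
    primrec_powVal.comp hR' snd
  exact primrec_anyBelow (succ.comp (fst.comp hR))
    (Primrec.and.comp (primrec_eqb (primrec_tableMul hR' hp hp) hp) (primrec_tableAcc hR' hp hp))

end Computability

end FA.Buchi
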